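/-
S15, block EXT, leaf L13 (architect helper92, proof helper273): the residue field of a valuation ring of
`ℚ̄` over `ℓ` is infinite: the roots of unity of order dividing `ℓ ^ f - 1` are in `A` and pairwise
incongruent modulo `A.nonunits` (`S19/T/Dual.lean`).
-/
import Fermat.Agent.S19.T.Dual

set_option autoImplicit false

namespace Fermat.Agent.S15.Ext

open Fermat.Agent.S19

/-- the residue field of `A` is infinite. -/
theorem exists_incongruent' (A : ValuationSubring Qb) {ℓ : ℕ} (hℓ : ℓ.Prime)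
    (hA : A.LiesOverPrime ℓ) (m : ℕ) : ∃ s : Finset Qb, m ≤ s.card ∧ (∀ c ∈ s, c ∈ A) ∧
      ∀ c ∈ s, ∀ c' ∈ s, c - c' ∈ A.nonunits → c = c' := by
  have : Fact ℓ.Prime := ⟨hℓ⟩
  have hf : 0 < m + 1 := Nat.succ_pos m
  have hn : 0 < ℓ ^ (m + 1) - 1 := dual_pos hf
  have : NeZero (ℓ ^ (m + 1) - 1) := ⟨hn.ne'⟩
  obtain ⟨ζ, hζ⟩ := HasEnoughRootsOfUnity.exists_primitiveRoot Qb (ℓ ^ (m + 1) - 1)
  refine ⟨Polynomial.nthRootsFinset (ℓ ^ (m + 1) - 1) (1 : Qb), ?_, fun c hc => ?_,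
    fun c hc c' hc' h => ?_⟩
  · rw [hζ.card_nthRootsFinset]
    have h1 : m + 1 < 2 ^ (m + 1) := Nat.lt_two_pow_self
    have h2 : 2 ^ (m + 1) ≤ ℓ ^ (m + 1) := Nat.pow_le_pow_left hℓ.two_le _
    omega
  · exact dual_mem_of_pow_eq_one hn ((Polynomial.mem_nthRootsFinset hn 1).1 hc)
  · exact dual_eq_of_sub_mem hA hf ((Polynomial.mem_nthRootsFinset hn 1).1 hc)
      ((Polynomial.mem_nthRootsFinset hn 1).1 hc') h

end Fermat.Agent.S15.Ext
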