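/-
S15, block EXT, leaf CONST (architect helper92): choice of the centre `c` of the third chart.

For a finite set `T` of places there is `c ∈ A` such that `(x - c)⁻¹` is regular with value in `A` at every `P ∈ T`.

Proof.  `P ∈ T` is BAD for `c` iff `0 ≤ ord_P x` and `x(P) - c ∈ A.nonunits` (if `ord_P x < 0` then `ord_P (x - c)⁻¹ > 0`, value `0`;
if `x(P) ∉ A` then `x(P) - c ∉ A`, so its inverse is in `A`; if `x(P) - c` is a unit of `A`, fine; NB `x - c ≠ 0` is not needed:
`0⁻¹ = 0`).  If `P` is bad for `c` and for `c'` then `c - c' ∈ A.nonunits`.  So it is enough to find `#T + 1` elements of `A`, pairwise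
incongruent modulo `A.nonunits` (pigeonhole: `Finset.exists_ne_map_eq_of_card_lt_of_maps_to` or induction on `T`):
the residue field of `A` is infinite.  E.g. for `m` prime to `ℓ` the `m`-th roots of unity of `ℚ̄` are pairwise incongruent
(`∏_{ζ ≠ 1} (1 - ζ) = m` is a unit of `A`; see `S19/T/Dual.lean: dual_eq_of_sub_mem`), they are in `A` (integral), there are `m` of them.
-/
import Fermat.Agent.S19.Int.Eval
import Fermat.Agent.S19.Int.Defs
import Fermat.Agent.S15.Ext.Incong

set_option autoImplicit false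

noncomputable section

namespace Fermat.Agent.S15.Ext

open AlgebraicCurve Fermat.Agent.S24.FF Fermat.Agent.S27 Fermat.Agent.S19 Fermat.Agent.S19.Int

/-- the residue field of `A` is infinite. -/
theorem exists_incongruent (A : ValuationSubring Qb) {ℓ : ℕ} (hℓ : ℓ.Prime) (hA : A.LiesOverPrime ℓ)
    (m : ℕ) : ∃ s : Finset Qb, m ≤ s.card ∧ (∀ c ∈ s, c ∈ A) ∧
      ∀ c ∈ s, ∀ c' ∈ s, c - c' ∈ A.nonunits → c = c' :=
  exists_incongruent' A hℓ hA m

variable {F : Type} [Field F] [Algebra Qb F] [IsFF1 Qb F]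

/-- a place which is not bad for `c` is good for `c`. -/
private theorem const_good_of_not_bad (A : ValuationSubring Qb) (x : F) (P : Place Qb F) (c : Qb)
    (h : ¬ (0 ≤ P.ord x ∧ ev P x - c ∈ A.nonunits)) :
    0 ≤ P.ord (x - algebraMap Qb F c)⁻¹ ∧ ev P (x - algebraMap Qb F c)⁻¹ ∈ A := by
  by_cases hx : 0 ≤ P.ord x
  · have hnu : ev P x - c ∉ A.nonunits := fun h' => h ⟨hx, h'⟩
    have hne : ev P x - c ≠ 0 := by
      intro h0
      apply hnu
      rw [h0, ValuationSubring.mem_nonunits_iff, map_zero]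
      exact zero_lt_one
    have hval : IsVal P (x - algebraMap Qb F c)⁻¹ (ev P x - c)⁻¹ :=
      ((isVal_ev hx).sub (isVal_algebraMap P c)).inv hne
    refine ⟨hval.ord_nonneg, ?_⟩
    rw [ev_eq_of_isVal hval]
    rw [ValuationSubring.mem_nonunits_iff, not_lt] at hnu
    rw [← ValuationSubring.valuation_le_one_iff, map_inv₀]
    exact inv_le_one_of_one_le₀ hnu
  · push Not at hx
    have hx0 : x ≠ 0 := ne_zero_of_ord_ne_zero P hx.ne
    have hord : P.ord (x - algebraMap Qb F c) = P.ord x := by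
      have := ord_add_eq_of_lt P (f := x) (g := -algebraMap Qb F c) hx0
        (by rw [ord_neg, ord_algebraMap]; exact hx)
      rwa [← sub_eq_add_neg] at this
    have hpos : 0 < P.ord (x - algebraMap Qb F c)⁻¹ := by
      rw [P.ord_inv, hord]
      omega
    refine ⟨hpos.le, ?_⟩
    rw [(ev_eq_zero_iff hpos.le).2 (Or.inr hpos)]
    exact A.zero_mem

theorem exists_good_const (A : ValuationSubring Qb) {ℓ : ℕ} (hℓ : ℓ.Prime)
    (hA : A.LiesOverPrime ℓ) (x : F) (T : Finset (Place Qb F)) :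
    ∃ c ∈ A, ∀ P ∈ T, 0 ≤ P.ord (x - algebraMap Qb F c)⁻¹ ∧
      ev P (x - algebraMap Qb F c)⁻¹ ∈ A := by
  classical
  obtain ⟨s, hcard, hsA, hinc⟩ := exists_incongruent A hℓ hA (T.card + 1)
  by_contra hcon
  push Not at hcon
  have hbad : ∀ c : s, ∃ P, P ∈ T ∧ 0 ≤ P.ord x ∧ ev P x - c.1 ∈ A.nonunits := by
    intro c
    obtain ⟨P, hPT, hP⟩ := hcon c.1 (hsA c.1 c.2)
    refine ⟨P, hPT, ?_⟩
    by_contra hnb
    obtain ⟨h1, h2⟩ := const_good_of_not_bad A x P c.1 hnb
    exact hP h1 h2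
  choose f hfT hf0 hf1 using hbad
  obtain ⟨c, -, c', -, hne, hcc⟩ := Finset.exists_ne_map_eq_of_card_lt_of_maps_to
    (s := s.attach) (t := T) (f := f) (by rw [Finset.card_attach]; omega) (fun c _ => hfT c)
  apply hne
  apply Subtype.ext
  apply hinc c.1 c.2 c'.1 c'.2
  have h1 := hf1 c
  have h2 := hf1 c'
  rw [hcc] at h1
  rw [ValuationSubring.mem_nonunits_iff] at h1 h2 ⊢
  have h3 : c.1 - c'.1 = (ev (f c') x - c'.1) - (ev (f c') x - c.1) := by ring
  rw [h3]
  exact Valuation.map_sub_lt _ h2 h1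

end Fermat.Agent.S15.Ext
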