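/-
S15, block EXT, leaf COORD (architect helper92, proofs helper80): `S18.IsCoord` is invariant under `x ↦ x - c` (`c ∈ A₀`) and `x ↦ x⁻¹`;
the chart of `x - c` is the chart of `x`.   Mathlib + `S18/Defs`, `S18/Chart/*` only.

(C1) `adjoin_eq`: `K₀⟮x - c⟯ = K₀⟮x⟯`.  `transc`: `aeval (x - c) p = aeval x (p.comp (X - C c))`; `p.comp (X - C c)` has coefficients in
     `A₀` (lift `p` to `A₀[X]`); so all its coefficients are divisible by `ϖ₀`: `p.comp (X - C c) = C ϖ₀ * r`, `r` with coefficients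
     in `A₀`; then `p = C ϖ₀ * r.comp (X + C c)`.
(C2) `mem`: if `x⁻¹ ∉ Ow` then `x / ϖ ∈ Ow` (`IsUnif.div_mem`), and `hx.transc X` gives `1 / ϖ₀ ∈ A₀`, contradiction with
     `h₀.inv_notMem`.  `transc`: `x ^ p.natDegree * aeval x⁻¹ p = aeval x p.reverse` (`Polynomial.eval₂_reverse_mul_pow` or
     `Polynomial.reflect`), coefficients of `p.reverse` are coefficients of `p`.
(C3) `polyRing A₀ (x - c) = polyRing A₀ x` (`S18.mem_polyRing_iff`, `comp` with `X ∓ C c`), hence the charts agree.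
-/
import Fermat.Agent.S18.Chart.Mem
import Fermat.Agent.S18.Chart.Basic

set_option autoImplicit false
set_option linter.unusedSectionVars false
set_option linter.unusedVariables false

noncomputable section

namespace Fermat.Agent.S15.Ext

open Polynomial IntermediateField Fermat.Agent.S18

variable {K₀ F : Type*} [Field K₀] [Field F] [Algebra K₀ F]
variable {A₀ : ValuationSubring K₀} {ϖ₀ : K₀} {Ow : ValuationSubring F}
variable {E : IntermediateField K₀ F} {x : F}

/-- the composite of two polynomials with coefficients in a subring has coefficients in it -/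
private theorem coord_coeff_comp_mem (A : Subring K₀) {p q : K₀[X]} (hp : ∀ i, p.coeff i ∈ A)
    (hq : ∀ i, q.coeff i ∈ A) (i : ℕ) : (p.comp q).coeff i ∈ A := by
  have hp' : p ∈ Polynomial.lifts A.subtype := by
    rw [Polynomial.lifts_iff_coeff_lifts]
    exact fun j => ⟨⟨_, hp j⟩, rfl⟩
  have hq' : q ∈ Polynomial.lifts A.subtype := by
    rw [Polynomial.lifts_iff_coeff_lifts]
    exact fun j => ⟨⟨_, hq j⟩, rfl⟩
  obtain ⟨P, rfl⟩ := hp'
  obtain ⟨Q, rfl⟩ := hq'
  have h : ((mapRingHom A.subtype) P).comp ((mapRingHom A.subtype) Q) =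
      (P.comp Q).map A.subtype := by
    rw [Polynomial.map_comp]
    rfl
  rw [h, coeff_map]
  exact ((P.comp Q).coeff i).2

private theorem coord_coeff_X_sub_C_mem (A : Subring K₀) {c : K₀} (hc : c ∈ A) (i : ℕ) :
    (X - C c : K₀[X]).coeff i ∈ A := by
  rw [coeff_sub, coeff_X, coeff_C]
  refine A.sub_mem ?_ ?_
  · split_ifs
    · exact A.one_mem
    · exact A.zero_mem
  · split_ifs
    · exact hc
    · exact A.zero_mem

private theorem coord_coeff_X_add_C_mem (A : Subring K₀) {c : K₀} (hc : c ∈ A) (i : ℕ) :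
    (X + C c : K₀[X]).coeff i ∈ A := by
  rw [coeff_add, coeff_X, coeff_C]
  refine A.add_mem ?_ ?_
  · split_ifs
    · exact A.one_mem
    · exact A.zero_mem
  · split_ifs
    · exact hc
    · exact A.zero_mem

private theorem coord_aeval_comp_sub (x : F) (c : K₀) (p : K₀[X]) :
    aeval x (p.comp (X - C c)) = aeval (x - algebraMap K₀ F c) p := by
  rw [aeval_comp, map_sub, aeval_X, aeval_C]

private theorem coord_aeval_comp_add (x : F) (c : K₀) (p : K₀[X]) :
    aeval (x - algebraMap K₀ F c) (p.comp (X + C c)) = aeval x p := by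
  rw [aeval_comp, map_add, aeval_X, aeval_C, sub_add_cancel]

private theorem coord_comp_comp (c : K₀) (p : K₀[X]) :
    (p.comp (X - C c)).comp (X + C c) = p := by
  rw [comp_assoc, sub_comp, X_comp, C_comp, add_sub_cancel_right, comp_X]

/-- (C1) -/
theorem isCoord_sub_const (h₀ : IsUnif A₀ ϖ₀) (hconst : ∀ a ∈ A₀, algebraMap K₀ F a ∈ Ow)
    (hx : IsCoord A₀ ϖ₀ Ow E x) {c : K₀} (hc : c ∈ A₀) :
    IsCoord A₀ ϖ₀ Ow E (x - algebraMap K₀ F c) := by
  refine ⟨?_, Ow.sub_mem hx.mem (hconst c hc), ?_⟩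
  · rw [← hx.adjoin_eq]
    apply le_antisymm
    · rw [adjoin_simple_le_iff]
      exact sub_mem (mem_adjoin_simple_self K₀ x) (IntermediateField.algebraMap_mem _ c)
    · rw [adjoin_simple_le_iff]
      have h := add_mem (mem_adjoin_simple_self K₀ (x - algebraMap K₀ F c))
        (IntermediateField.algebraMap_mem K₀⟮x - algebraMap K₀ F c⟯ c)
      rwa [sub_add_cancel] at h
  · intro p hp hdiv i
    have h1 : ∀ j, (p.comp (X - C c)).coeff j ∈ A₀.toSubring :=
      coord_coeff_comp_mem A₀.toSubring hp (coord_coeff_X_sub_C_mem A₀.toSubring hc)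
    have h2 := hx.transc (p.comp (X - C c)) h1 (by rw [coord_aeval_comp_sub]; exact hdiv)
    have h3 : ∀ j, (C ϖ₀⁻¹ * p.comp (X - C c)).coeff j ∈ A₀.toSubring := by
      intro j
      rw [coeff_C_mul, mul_comm, ← div_eq_mul_inv]
      exact h2 j
    have h4 := coord_coeff_comp_mem A₀.toSubring h3 (coord_coeff_X_add_C_mem A₀.toSubring hc) i
    rw [mul_comp, C_comp, coord_comp_comp, coeff_C_mul, mul_comm, ← div_eq_mul_inv] at h4
    exact h4

/-- a coordinate is not divisible by the uniformiser -/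
private theorem coord_not_div_mem (h₀ : IsUnif A₀ ϖ₀) (hx : IsCoord A₀ ϖ₀ Ow E x) :
    x / algebraMap K₀ F ϖ₀ ∉ Ow := by
  intro h
  have h1 := hx.transc X (fun i => by
    rw [coeff_X]
    split_ifs
    · exact A₀.one_mem
    · exact A₀.zero_mem) (by rw [aeval_X]; exact h) 1
  rw [coeff_X_one, one_div] at h1
  exact h₀.inv_notMem h1

/-- (C2) -/
theorem isCoord_inv (h₀ : IsUnif A₀ ϖ₀) (hU : IsUnif Ow (algebraMap K₀ F ϖ₀))
    (hx : IsCoord A₀ ϖ₀ Ow E x) : IsCoord A₀ ϖ₀ Ow E x⁻¹ := by
  have hnd := coord_not_div_mem h₀ hx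
  have hx0 : x ≠ 0 := by
    rintro rfl
    exact hnd (by rw [zero_div]; exact Ow.zero_mem)
  refine ⟨?_, ?_, ?_⟩
  · rw [← hx.adjoin_eq]
    apply le_antisymm
    · rw [adjoin_simple_le_iff]
      exact inv_mem (mem_adjoin_simple_self K₀ x)
    · rw [adjoin_simple_le_iff]
      have h := inv_mem (mem_adjoin_simple_self K₀ x⁻¹)
      rwa [inv_inv] at h
  · by_contra h
    exact hnd (hU.div_mem hx.mem h)
  · intro p hp hdiv i
    have hrev : aeval x p.reverse = aeval x⁻¹ p * x ^ p.natDegree := by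
      let _ : Invertible x⁻¹ := invertibleOfNonzero (inv_ne_zero hx0)
      have h := eval₂_reverse_mul_pow (algebraMap K₀ F) x⁻¹ p
      rw [invOf_eq_inv, inv_inv] at h
      rw [aeval_def, aeval_def, ← h, mul_assoc, ← mul_pow, inv_mul_cancel₀ hx0, one_pow, mul_one]
    have h1 : ∀ j, p.reverse.coeff j ∈ A₀ := by
      intro j
      rw [coeff_reverse]
      exact hp _
    have h2 := hx.transc p.reverse h1 (by
      rw [hrev, mul_div_right_comm]
      exact Ow.mul_mem _ _ hdiv (Ow.pow_mem hx.mem _)) (revAt p.natDegree i)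
    rwa [coeff_reverse, revAt_invol] at h2

private theorem coord_polyRing_sub_const (A : Subring K₀) (x : F) {c : K₀} (hc : c ∈ A) :
    polyRing A (x - algebraMap K₀ F c) = polyRing A x := by
  ext y
  rw [mem_polyRing_iff, mem_polyRing_iff]
  constructor
  · rintro ⟨p, hp, rfl⟩
    exact ⟨p.comp (X - C c), coord_coeff_comp_mem A hp (coord_coeff_X_sub_C_mem A hc),
      coord_aeval_comp_sub x c p⟩
  · rintro ⟨p, hp, rfl⟩
    exact ⟨p.comp (X + C c), coord_coeff_comp_mem A hp (coord_coeff_X_add_C_mem A hc),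
      coord_aeval_comp_add x c p⟩

/-- (C3) -/
theorem chart_sub_const (A : Subring K₀) (x : F) {c : K₀} (hc : c ∈ A) :
    chart A (x - algebraMap K₀ F c) = chart A x :=
  congrArg (fun R : Subring F => (integralClosure R F).toSubring)
    (coord_polyRing_sub_const A x hc)

end Fermat.Agent.S15.Ext
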