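/-
S15, block EXT, leaf HOMOG (architect helper92, proof helper80): homogenisation.  Mathlib + `S18/Defs`, `S18/Chart/Mem` only.

`a` integral over `A[t / u]`, `t, u ∈ A[z]`  ⟹  `u ^ m * a` integral over `A[z]` for `m ≫ 0`.

Proof.  `a ^ d + ∑_{i < d} p_i(t/u) a ^ i = 0`, `p_i ∈ A[T]`; `N ≥ deg p_i` for all `i`; `u ^ N * p_i(t/u) ∈ A[z]`;
multiply by `u ^ (N d)`: `(u^N a)^d + ∑ u^(N (d-i-1)) (u^N p_i(t/u)) (u^N a)^i = 0`.
(Mathlib: `Polynomial.scaleRoots`, or `IsIntegral.exists_multiple_integral_of_isLocalization` for `Submonoid.powers u`.)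
For `m ≥ N`: `u ^ m * a = u ^ (m - N) * (u ^ N * a)` and `u ∈ A[z] ⊆ chart`.
-/
import Fermat.Agent.S18.Chart.Mem

set_option autoImplicit false

noncomputable section

namespace Fermat.Agent.S15.Ext

open Polynomial Fermat.Agent.S18

variable {K F : Type*} [Field K] [Field F] [Algebra K F]

private theorem homog_const_mem (A : Subring K) (z : F) {c : K} (hc : c ∈ A) :
    algebraMap K F c ∈ polyRing A z := by
  rw [mem_polyRing_iff]
  refine ⟨C c, fun i => ?_, aeval_C _ _⟩
  rw [coeff_C]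
  split_ifs
  · exact hc
  · exact A.zero_mem

/-- clearing the denominators of an element of `A[t / u]` -/
private theorem homog_exists_pow_mul_mem (A : Subring K) {z t u : F} (ht : t ∈ polyRing A z)
    (hu : u ∈ polyRing A z) (hu0 : u ≠ 0) {r : F} (hr : r ∈ polyRing A (t / u)) :
    ∃ N : ℕ, ∀ m, N ≤ m → u ^ m * r ∈ polyRing A z := by
  rw [mem_polyRing_iff] at hr
  obtain ⟨p, hp, rfl⟩ := hr
  refine ⟨p.natDegree, fun m hm => ?_⟩
  rw [aeval_eq_sum_range, Finset.mul_sum]
  refine Subring.sum_mem _ fun i hi => ?_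
  have him : i ≤ m := (Nat.lt_succ_iff.1 (Finset.mem_range.1 hi)).trans hm
  have h1 : u ^ m * (p.coeff i • (t / u) ^ i) =
      algebraMap K F (p.coeff i) * (u ^ (m - i) * t ^ i) := by
    have h2 : u ^ m = u ^ (m - i) * u ^ i := by rw [← pow_add, Nat.sub_add_cancel him]
    rw [Algebra.smul_def, h2, div_pow]
    field_simp
  rw [h1]
  exact Subring.mul_mem _ (homog_const_mem A z (hp i))
    (Subring.mul_mem _ (Subring.pow_mem _ hu _) (Subring.pow_mem _ ht _))

theorem exists_pow_mul_mem_chart (A : Subring K) {z t u a : F} (ht : t ∈ polyRing A z)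
    (hu : u ∈ polyRing A z) (hu0 : u ≠ 0) (ha : a ∈ chart A (t / u)) :
    ∃ N : ℕ, ∀ m, N ≤ m → u ^ m * a ∈ chart A z := by
  rw [mem_chart_iff_isIntegral] at ha
  obtain ⟨P, hPm, hPa⟩ := ha
  choose Nf hNf using fun r : polyRing A (t / u) => homog_exists_pow_mul_mem A ht hu hu0 r.2
  set d := P.natDegree with hd
  set N : ℕ := (Finset.range (d + 1)).sup fun i => Nf (P.coeff i) with hN
  have hcoeff : ∀ i, u ^ N * ((P.coeff i : polyRing A (t / u)) : F) ∈ polyRing A z := by
    intro i
    by_cases hi : i ≤ d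
    · refine hNf _ N ?_
      exact Finset.le_sup (f := fun i => Nf (P.coeff i)) (Finset.mem_range.2 (Nat.lt_succ_iff.2 hi))
    · rw [coeff_eq_zero_of_natDegree_lt (not_le.1 hi)]
      simp only [ZeroMemClass.coe_zero, mul_zero]
      exact Subring.zero_mem _
  -- the polynomial over `F`
  set PF : F[X] := P.map (algebraMap (polyRing A (t / u)) F) with hPF
  have hPFm : PF.Monic := hPm.map _
  have hPFd : PF.natDegree = d := hPm.natDegree_map _
  have hPFa : eval a PF = 0 := by rw [hPF, eval_map]; exact hPa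
  have hPFc : ∀ i, PF.coeff i = ((P.coeff i : polyRing A (t / u)) : F) := fun i => coeff_map _ _
  set Q : F[X] := PF.scaleRoots (u ^ N) with hQ
  have hQm : Q.Monic := (monic_scaleRoots_iff _).2 hPFm
  have hQa : eval (u ^ N * a) Q = 0 := by rw [hQ, scaleRoots_eval_mul, hPFa, mul_zero]
  have hQl : Q ∈ Polynomial.lifts (algebraMap (polyRing A z) F) := by
    rw [Polynomial.lifts_iff_coeff_lifts]
    intro i
    have hmem : Q.coeff i ∈ polyRing A z := by
      rw [hQ, coeff_scaleRoots, hPFd]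
      rcases lt_trichotomy i d with hi | hi | hi
      · have h1 : (u ^ N) ^ (d - i) = u ^ N * (u ^ N) ^ (d - i - 1) := by
          rw [← pow_succ', Nat.sub_add_cancel (by omega)]
        rw [h1, hPFc, ← mul_assoc, mul_comm _ (u ^ N)]
        exact Subring.mul_mem _ (hcoeff i) (Subring.pow_mem _ (Subring.pow_mem _ hu _) _)
      · rw [hi, Nat.sub_self, pow_zero, mul_one, ← hPFd]
        have : PF.coeff PF.natDegree = 1 := hPFm
        rw [this]
        exact Subring.one_mem _
      · rw [coeff_eq_zero_of_natDegree_lt (by rw [hPFd]; exact hi), zero_mul]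
        exact Subring.zero_mem _
    exact ⟨⟨_, hmem⟩, rfl⟩
  obtain ⟨q, hq, -, hqm⟩ := Polynomial.lifts_and_natDegree_eq_and_monic hQl hQm
  have hint : u ^ N * a ∈ chart A z := by
    rw [mem_chart_iff_isIntegral]
    refine ⟨q, hqm, ?_⟩
    rw [← eval_map, hq]
    exact hQa
  have huc : u ∈ chart A z := by
    rw [mem_chart_iff_isIntegral]
    exact isIntegral_algebraMap (x := (⟨u, hu⟩ : polyRing A z))
  refine ⟨N, fun m hm => ?_⟩
  have h2 : u ^ m * a = u ^ (m - N) * (u ^ N * a) := by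
    rw [← mul_assoc, ← pow_add, Nat.sub_add_cancel hm]
  rw [h2]
  exact Subring.mul_mem _ (Subring.pow_mem _ huc _) hint

end Fermat.Agent.S15.Ext
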