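/-
S15, block EXT, leaf CONVERT (architect helper92): from the charts `x - c`, `(x - c)⁻¹` back to the two standard charts `x`, `x⁻¹`
(for which `chart ⊆ BA` is known: `S19.Int.chart_subset_BA`, `chart_inv_subset_BA`).

(V1) chart `x - c`: `chart_sub_const`; `ev P x = ev P (x - c) + c`.
(V2) chart `y' = (x - c)⁻¹`, `P` with `0 ≤ ord_P y'`, `y'(P) ∈ A`.  `chart_dichotomy x P`:
  (α) `0 ≤ ord_P x`, `x(P) ∈ A`: then `x' := x - c` has `ord_P x' = 0`, `x'(P) y'(P) = 1`, both in `A`: `x'(P)` is a unit.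
      `exists_pow_mul_mem_chart` with `z = x, t = 1, u = x'`: `a₁ := x' ^ m * a`, `b₁ := x' ^ m * b ∈ chart A x`.
  (β) `0 ≤ ord_P x⁻¹`, `x⁻¹(P) ∈ A.nonunits`: `y' = x⁻¹ / u`, `u := 1 - c x⁻¹`, `u(P) = 1 - c x⁻¹(P)` is a unit;
      `exists_pow_mul_mem_chart` with `z = x⁻¹, t = x⁻¹, u`.  (`x ≠ 0`, `x ≠ c`: `x` is transcendental, `transcendental_xK`.)
-/
import Fermat.Agent.S15.Ext.Homog
import Fermat.Agent.S15.Ext.Coord
import Fermat.Agent.S19.Int.Reps

set_option autoImplicit false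

noncomputable section

namespace Fermat.Agent.S15.Ext

open AlgebraicCurve ModularCurve Fermat.Agent.S24 Fermat.Agent.S24.FF Fermat.Agent.S27
  Fermat.Agent.S18 Fermat.Agent.S19 Fermat.Agent.S19.Int

variable {M ℓ : ℕ} [NeZero M] [Fact ℓ.Prime]

private theorem convert_isAU_mul {A : ValuationSubring Qb} {z w : Qb} (hz : IsAU A z) (hw : IsAU A w) :
    IsAU A (z * w) := by
  refine ⟨A.mul_mem _ _ hz.1 hw.1, ?_, mul_ne_zero hz.2.2 hw.2.2⟩
  rw [mul_inv]
  exact A.mul_mem _ _ hz.2.1 hw.2.1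

private theorem convert_isAU_pow {A : ValuationSubring Qb} {z : Qb} (hz : IsAU A z) (m : ℕ) :
    IsAU A (z ^ m) := by
  refine ⟨A.pow_mem hz.1 m, ?_, pow_ne_zero m hz.2.2⟩
  rw [← inv_pow]
  exact A.pow_mem hz.2.1 m

private theorem convert_core {F : Type} [Field F] [Algebra Qb F] [IsFF1 Qb F]
    (A : ValuationSubring Qb) {z t u f a b : F} {v : Qb} {P : Place Qb F}
    (ht : t ∈ polyRing A.toSubring z) (hu : u ∈ polyRing A.toSubring z) (hu0 : u ≠ 0)
    (ha : a ∈ chart A.toSubring (t / u)) (hb : b ∈ chart A.toSubring (t / u)) (e : f * b = a)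
    (hy : 0 ≤ P.ord (t / u)) (hyA : ev P (t / u) ∈ A) (hv : IsVal P u v) (hvA : IsAU A v)
    (hua : IsAU A (ev P a)) (hub : IsAU A (ev P b)) :
    ∃ a₁ b₁ : F, a₁ ∈ chart A.toSubring z ∧ b₁ ∈ chart A.toSubring z ∧ f * b₁ = a₁ ∧
      IsAU A (ev P a₁) ∧ IsAU A (ev P b₁) := by
  obtain ⟨Na, hNa⟩ := exists_pow_mul_mem_chart A.toSubring ht hu hu0 ha
  obtain ⟨Nb, hNb⟩ := exists_pow_mul_mem_chart A.toSubring ht hu hu0 hb
  have ha0 := (ev_mem_of_mem_chart ha P hy hyA).1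
  have hb0 := (ev_mem_of_mem_chart hb P hy hyA).1
  refine ⟨u ^ max Na Nb * a, u ^ max Na Nb * b, hNa _ (le_max_left _ _), hNb _ (le_max_right _ _),
    ?_, ?_, ?_⟩
  · rw [← e]
    ring
  · rw [ev_eq_of_isVal ((hv.pow _).mul (isVal_ev ha0))]
    exact convert_isAU_mul (convert_isAU_pow hvA _) hua
  · rw [ev_eq_of_isVal ((hv.pow _).mul (isVal_ev hb0))]
    exact convert_isAU_mul (convert_isAU_pow hvA _) hub

private theorem convert_self_mem_polyRing {K₀ F : Type*} [Field K₀] [Field F] [Algebra K₀ F]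
    (A : Subring K₀) (z : F) : z ∈ polyRing A z := by
  rw [mem_polyRing_iff]
  refine ⟨Polynomial.X, fun i => ?_, Polynomial.aeval_X z⟩
  rw [Polynomial.coeff_X]
  split_ifs
  · exact A.one_mem
  · exact A.zero_mem

private theorem convert_const_mem_polyRing {K₀ F : Type*} [Field K₀] [Field F] [Algebra K₀ F]
    (A : Subring K₀) (z : F) {c : K₀} (hc : c ∈ A) : algebraMap K₀ F c ∈ polyRing A z := by
  rw [mem_polyRing_iff]
  refine ⟨Polynomial.C c, fun i => ?_, Polynomial.aeval_C z c⟩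
  rw [Polynomial.coeff_C]
  split_ifs
  · exact hc
  · exact A.zero_mem

omit [NeZero M] [Fact ℓ.Prime] in
private theorem convert_xK_ne (D : BaseData M ℓ) (c : Kbar) :
    D.xK Kbar ≠ algebraMap Kbar (FN M) c := by
  intro h
  refine transcendental_xK D Kbar ?_
  rw [h]
  exact isAlgebraic_algebraMap c

/-- (V1) -/
theorem aunit_of_chart_sub (hℓ : ¬ ℓ ∣ M) (D : BaseData M ℓ) (A : ValuationSubring Qb)
    (hA : A.LiesOverPrime ℓ) {c : Kbar} (hc : c ∈ A) {f a b : FN M} {P : Place Kbar (FN M)}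
    (ha : a ∈ chart A.toSubring (D.xK Kbar - algebraMap Kbar (FN M) c))
    (hb : b ∈ chart A.toSubring (D.xK Kbar - algebraMap Kbar (FN M) c)) (e : f * b = a)
    (hy : 0 ≤ P.ord (D.xK Kbar - algebraMap Kbar (FN M) c))
    (hyA : ev P (D.xK Kbar - algebraMap Kbar (FN M) c) ∈ A)
    (hua : IsAU A (ev P a)) (hub : IsAU A (ev P b)) :
    AUnit (galM M) A (D.xK Kbar) f P := by
  rw [chart_sub_const A.toSubring (D.xK Kbar) hc] at ha hb
  have hx : IsVal P (D.xK Kbar) (ev P (D.xK Kbar - algebraMap Kbar (FN M) c) + c) := by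
    have h := (isVal_ev hy).add (isVal_algebraMap P c)
    rwa [sub_add_cancel] at h
  refine Or.inl ⟨hx.ord_nonneg, ?_, a, b, chart_subset_BA hℓ D A hA ha,
    chart_subset_BA hℓ D A hA hb, e, hua, hub⟩
  rw [ev_eq_of_isVal hx]
  exact A.add_mem _ _ hyA hc

/-- (V2) -/
theorem aunit_of_chart_sub_inv (hℓ : ¬ ℓ ∣ M) (D : BaseData M ℓ) (A : ValuationSubring Qb)
    (hA : A.LiesOverPrime ℓ) {c : Kbar} (hc : c ∈ A) {f a b : FN M} {P : Place Kbar (FN M)}
    (ha : a ∈ chart A.toSubring (D.xK Kbar - algebraMap Kbar (FN M) c)⁻¹)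
    (hb : b ∈ chart A.toSubring (D.xK Kbar - algebraMap Kbar (FN M) c)⁻¹) (e : f * b = a)
    (hy : 0 ≤ P.ord (D.xK Kbar - algebraMap Kbar (FN M) c)⁻¹)
    (hyA : ev P (D.xK Kbar - algebraMap Kbar (FN M) c)⁻¹ ∈ A)
    (hua : IsAU A (ev P a)) (hub : IsAU A (ev P b)) :
    AUnit (galM M) A (D.xK Kbar) f P := by
  have hxc : D.xK Kbar - algebraMap Kbar (FN M) c ≠ 0 := sub_ne_zero.2 (convert_xK_ne D c)
  have hx0 : D.xK Kbar ≠ 0 := by
    have h := convert_xK_ne D 0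
    rwa [map_zero] at h
  rcases chart_dichotomy (A := A) (D.xK Kbar) P with ⟨h0, hxA⟩ | ⟨h0, hxA⟩
  · -- (α)
    have hv : IsVal P (D.xK Kbar - algebraMap Kbar (FN M) c) (ev P (D.xK Kbar) - c) :=
      (isVal_ev h0).sub (isVal_algebraMap P c)
    have h1 : (ev P (D.xK Kbar) - c) * ev P (D.xK Kbar - algebraMap Kbar (FN M) c)⁻¹ = 1 := by
      have h2 := hv.mul (isVal_ev hy)
      rw [mul_inv_cancel₀ hxc] at h2
      have h3 := isVal_algebraMap P (1 : Kbar)
      rw [map_one] at h3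
      exact h2.unique h3
    have hvA : IsAU A (ev P (D.xK Kbar) - c) :=
      Reps.isAU_of_mul (A.sub_mem hxA hc) hyA (by rw [h1, map_one])
    have hdiv : (1 : FN M) / (D.xK Kbar - algebraMap Kbar (FN M) c)
        = (D.xK Kbar - algebraMap Kbar (FN M) c)⁻¹ := one_div _
    rw [← hdiv] at ha hb hy hyA
    obtain ⟨a₁, b₁, ha₁, hb₁, e₁, hua₁, hub₁⟩ := convert_core A
      (z := D.xK Kbar) (Subring.one_mem _)
      (Subring.sub_mem _ (convert_self_mem_polyRing _ _) (convert_const_mem_polyRing _ _ hc))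
      hxc ha hb e hy hyA hv hvA hua hub
    exact Or.inl ⟨h0, hxA, a₁, b₁, chart_subset_BA hℓ D A hA ha₁,
      chart_subset_BA hℓ D A hA hb₁, e₁, hua₁, hub₁⟩
  · -- (β)
    have hxA' : ev P (D.xK Kbar)⁻¹ ∈ A := Reps.mem_of_mem_nonunits hxA
    have hv : IsVal P (1 - algebraMap Kbar (FN M) c * (D.xK Kbar)⁻¹)
        (1 - c * ev P (D.xK Kbar)⁻¹) := by
      have h3 := isVal_algebraMap P (1 : Kbar)
      rw [map_one] at h3
      exact h3.sub ((isVal_algebraMap P c).mul (isVal_ev h0))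
    have hval : A.valuation (1 - c * ev P (D.xK Kbar)⁻¹) = 1 := by
      have h4 : A.valuation (-(c * ev P (D.xK Kbar)⁻¹)) < 1 := by
        rw [Valuation.map_neg, map_mul]
        rw [ValuationSubring.mem_nonunits_iff] at hxA
        exact mul_lt_one_of_nonneg_of_lt_one_right ((A.valuation_le_one_iff c).2 hc) zero_le hxA
      have h5 := Valuation.map_one_add_of_lt (v := A.valuation) h4
      rwa [← sub_eq_add_neg] at h5
    have hvA : IsAU A (1 - c * ev P (D.xK Kbar)⁻¹) :=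
      Reps.isAU_of_mul (u' := 1) (A.sub_mem A.one_mem (A.mul_mem _ _ hc hxA')) A.one_mem
        (by rw [mul_one, hval])
    have hu0 : (1 - algebraMap Kbar (FN M) c * (D.xK Kbar)⁻¹ : FN M) ≠ 0 := by
      intro h
      apply hxc
      field_simp at h
      rwa [mul_zero] at h
    have hdiv : (D.xK Kbar)⁻¹ / (1 - algebraMap Kbar (FN M) c * (D.xK Kbar)⁻¹)
        = (D.xK Kbar - algebraMap Kbar (FN M) c)⁻¹ := by
      rw [div_eq_iff hu0, eq_comm, inv_mul_eq_iff_eq_mul₀ hxc]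
      field_simp
    rw [← hdiv] at ha hb hy hyA
    obtain ⟨a₁, b₁, ha₁, hb₁, e₁, hua₁, hub₁⟩ := convert_core A
      (z := (D.xK Kbar)⁻¹) (convert_self_mem_polyRing _ _)
      (Subring.sub_mem _ (Subring.one_mem _)
        (Subring.mul_mem _ (convert_const_mem_polyRing _ _ hc) (convert_self_mem_polyRing _ _)))
      hu0 ha hb e hy hyA hv hvA hua hub
    exact Or.inr ⟨h0, hxA', a₁, b₁, chart_inv_subset_BA hℓ D A hA ha₁,
      chart_inv_subset_BA hℓ D A hA hb₁, e₁, hua₁, hub₁⟩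

end Fermat.Agent.S15.Ext
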