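/-
S15, block EXT (architect helper92) = FL-2 + FL-3 of report #1369 = HOPF-EXT of #1380:
Kummer cocycles of `J₀(M)` are "flat" at a prime `ℓ ∤ M`:

    `IsSI A (fun σ => weil n (σ • R - R) (σ • w))`   for `n • R = cls DP`, `DP` fixed by inertia, `n • w = 0`.

Definitions.
* `KumRep n DP R` : a representative `(D, g)` of `R`: `cls D = R`, `div g = n D - DP`.
* `KumRep.diff`   : the representative `(σ D - D, σ g / g)` of the `n`-torsion class `σ R - R` (when `σ DP = DP`).
* `PairOut A ϖ x' n gR fw q` : the output of the pair lemma (see `PairAbs.lean`).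
-/
import Fermat.Agent.S19.Int.Defs
import Fermat.Agent.S19.Weil.Rep

set_option autoImplicit false

noncomputable section

namespace Fermat.Agent.S15.Ext

open AlgebraicCurve Fermat.Agent.S24.FF Fermat.Agent.S27 Fermat.Agent.S19 Fermat.Agent.S19.Weil
  Fermat.Agent.S19.Int

section Rep

variable {K F : Type*} [Field K] [Field F] [Algebra K F]

/-- A representative of a class `R` with `n R = [DP]`. -/
structure KumRep (n : ℕ) (DP : Divisor K F) (R : Pic0 K F) where
  /-- the divisor -/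
  D : Divisor K F
  /-- the function with divisor `n D - DP` -/
  g : F
  deg : Divisor.degree D = 0
  cls_eq : cls D = R
  div : IsDivOf ((n : ℤ) • D - DP) g

end Rep

section Pair

variable {K F : Type*} [Field K] [Field F] [Algebra K F]

/-- The output of the pair lemma, relative to a subring `A` of the constants and the two charts
`x'`, `x'⁻¹`:  `g := sR ^ n * cR * gR` is `a₁ / b₁` with `a₁, b₁` invertible modulo `(ϖ, x')` in the chart `x'`,
it is `a / b` in the chart `x'⁻¹`, and `f := sw ^ n * cw * fw` is `aw / bw` with `aw, bw` invertible modulo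
`(ϖ, a b q)` in the chart `x'⁻¹`. -/
def PairOut (A : Subring K) (ϖ : K) (x' : F) (n : ℕ) (gR fw q : F) : Prop :=
  ∃ (cR cw : K) (sR sw a₁ b₁ a b aw bw : F), cR ≠ 0 ∧ cw ≠ 0 ∧ sR ≠ 0 ∧ sw ≠ 0 ∧
    a₁ ≠ 0 ∧ b₁ ≠ 0 ∧ a ≠ 0 ∧ b ≠ 0 ∧ aw ≠ 0 ∧ bw ≠ 0 ∧
    UnitMod (S18.chart A x') (algebraMap K F ϖ) x' a₁ ∧
    UnitMod (S18.chart A x') (algebraMap K F ϖ) x' b₁ ∧
    sR ^ n * (algebraMap K F cR * gR) * b₁ = a₁ ∧
    a ∈ S18.chart A x'⁻¹ ∧ b ∈ S18.chart A x'⁻¹ ∧
    sR ^ n * (algebraMap K F cR * gR) * b = a ∧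
    UnitMod (S18.chart A x'⁻¹) (algebraMap K F ϖ) (a * b * q) aw ∧
    UnitMod (S18.chart A x'⁻¹) (algebraMap K F ϖ) (a * b * q) bw ∧
    sw ^ n * (algebraMap K F cw * fw) * bw = aw

end Pair

end Fermat.Agent.S15.Ext
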