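/-
S15, block EXT, leaf DESCENT (architect helper92): descent of `gR`, `fw` to a number field, keeping track of the places
where the divisor of `gR` is not divisible by `n`.   MODEL: `pb_descent` (`S19/Int/PairBar.lean`).
-/
import Fermat.Agent.S19.Int.PairBar

set_option autoImplicit false

noncomputable section

namespace Fermat.Agent.S15.Ext

open AlgebraicCurve ModularCurve Fermat.Agent.S24 Fermat.Agent.S18 Fermat.Agent.S24.FF
  Fermat.Agent.S18.Descent

variable {M : ℕ} [NeZero M]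

theorem ext_descent {n : ℕ} {gR fw : FN M} (T : Finset (Place Kbar (FN M))) (C : Finset Kbar)
    (hw : ∀ P : Place Kbar (FN M), (n : ℤ) ∣ P.ord fw)
    (hR : ∀ P : Place Kbar (FN M), P ∉ T → (n : ℤ) ∣ P.ord gR) :
    ∃ (K₀ : IntermediateField ℚ Kbar) (_ : FiniteDimensional ℚ K₀) (gR₀ fw₀ : FK K₀ M),
      (∀ c ∈ C, c ∈ K₀) ∧
      baseChangeMap (modularFunctionFieldFull M) (algebraMap K₀ Kbar) gR₀ = gR ∧
      baseChangeMap (modularFunctionFieldFull M) (algebraMap K₀ Kbar) fw₀ = fw ∧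
      (∀ w : Place K₀ (FK K₀ M), (n : ℤ) ∣ w.ord fw₀) ∧
      (∀ w : Place K₀ (FK K₀ M), (n : ℤ) ∣ w.ord gR₀ ∨ ∃ P ∈ T,
        PlaceOver (baseChangeMap (modularFunctionFieldFull M) (algebraMap K₀ Kbar)) P w) := by
  classical
  have : Algebra.IsAlgebraic ℚ Kbar := AlgebraicClosure.isAlgebraic ℚ
  have hfinv : {P : Place Kbar (FN M) | P.ord gR ≠ 0}.Finite := finite_ord_ne_zero gR
  have hfinw : {P : Place Kbar (FN M) | P.ord fw ≠ 0}.Finite := finite_ord_ne_zero fw
  choose t ht using fun P : Place Kbar (FN M) => exists_ord_eq_one P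
  let S : Finset (LaurentSeries Kbar) :=
    insert (gR : LaurentSeries Kbar) (insert (fw : LaurentSeries Kbar)
      ((hfinv.toFinset ∪ hfinw.toFinset).image fun P => ((t P : FN M) : LaurentSeries Kbar)))
  have hS : ∀ x ∈ S, x ∈ laurentBaseChange Kbar (modularFunctionFieldFull M) := by
    intro x hx
    simp only [S, Finset.mem_insert, Finset.mem_image] at hx
    rcases hx with rfl | rfl | ⟨P, -, rfl⟩
    · exact gR.2
    · exact fw.2
    · exact (t P).2
  obtain ⟨K₀, hK₀fin, -, hC, hdef⟩ := exists_definedOver_finset S hS C ⊥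
  obtain ⟨yv, hyv, hyv'⟩ := hdef (gR : LaurentSeries Kbar) (by simp [S])
  obtain ⟨yw, hyw, hyw'⟩ := hdef (fw : LaurentSeries Kbar) (by simp [S])
  let φ : K₀ →+* Kbar := algebraMap K₀ Kbar
  let Φ : FK K₀ M →+* FN M := baseChangeMap (modularFunctionFieldFull M) φ
  have hcomp : ∀ a : K₀, Φ (algebraMap K₀ (FK K₀ M) a) = algebraMap Kbar (FN M) (φ a) :=
    fun a => baseChangeMap_algebraMap φ a
  have hint : φ.IsIntegral := by
    intro c
    have h1 : IsIntegral ℚ c := (AlgebraicClosure.isAlgebraic ℚ).isAlgebraic c |>.isIntegral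
    exact h1.tower_top (A := K₀)
  have hΦv : Φ ⟨yv, hyv⟩ = gR := Subtype.ext hyv'
  have hΦw : Φ ⟨yw, hyw⟩ = fw := Subtype.ext hyw'
  have hunif : ∀ P : Place Kbar (FN M), P.ord gR ≠ 0 ∨ P.ord fw ≠ 0 →
      ∃ t₀ : FK K₀ M, P.ord (Φ t₀) = 1 := by
    intro P hP
    obtain ⟨y, hy, hy'⟩ := hdef ((t P : FN M) : LaurentSeries Kbar) (by
      simp only [S, Finset.mem_insert, Finset.mem_image]
      refine Or.inr (Or.inr ⟨P, ?_, rfl⟩)
      rw [Finset.mem_union, hfinv.mem_toFinset, hfinw.mem_toFinset]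
      exact hP)
    refine ⟨⟨y, hy⟩, ?_⟩
    have : Φ ⟨y, hy⟩ = t P := Subtype.ext hy'
    rw [this, ht]
  refine ⟨K₀, hK₀fin, ⟨yv, hyv⟩, ⟨yw, hyw⟩, hC, hΦv, hΦw, ?_, ?_⟩
  · refine dvd_ord_of_forall_dvd_ord φ Φ hcomp hint _ n ?_ ?_
    · intro P hP
      rw [hΦw] at hP
      exact hunif P (Or.inr hP)
    · intro P
      rw [hΦw]
      exact hw P
  · intro w
    obtain ⟨v, hv⟩ := exists_placeOver φ Φ hcomp hint w
    by_cases hvT : v ∈ T
    · exact Or.inr ⟨v, hvT, hv⟩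
    · left
      by_cases h0 : v.ord gR = 0
      · obtain ⟨e, he, hf⟩ := hv.exists_ord_eq_mul
        rw [← hΦv, hf] at h0
        rcases mul_eq_zero.mp h0 with h1 | h1
        · omega
        · rw [h1]; exact dvd_zero _
      · obtain ⟨t₀, ht₀⟩ := hunif v (Or.inl h0)
        rw [← hv.ord_eq_of_ord_eq_one ht₀, hΦv]
        exact hR v hvT

end Fermat.Agent.S15.Ext
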