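/-
S15, block EXT, leaf GQ (architect helper92).  MATHLIB ONLY.  The branch polynomial of the coordinate `(x - c)⁻¹` when `x` is
branched over `0, -b/a, ∞`:   `gq a b c = X * (1 + c X) * ((b + a c) X + a)`.
Over a field, with `a ≠ 0`, `b ≠ 0`, it is squarefree: the three factors have degree `≤ 1`, are non zero, and are pairwise coprime:
  `1 * (1 + c X) - c * X = 1`;   `a⁻¹ * ((b + a c) X + a) - a⁻¹ (b + a c) * X = 1`;
  `(b + a c) * (1 + c X) - c * ((b + a c) X + a) = b`.
(A non zero polynomial `C u * X + C v` over a field is separable: its derivative is the constant `u`; if `u = 0` the polynomial is a non zero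
constant, a unit.  `Polynomial.Separable.mul` needs `IsCoprime`; `Separable.squarefree`.)
-/
import Mathlib

set_option autoImplicit false

noncomputable section

namespace Fermat.Agent.S15.Ext

open Polynomial

/-- the branch polynomial -/
def gq {R : Type*} [CommRing R] (a b c : R) : R[X] :=
  X * (1 + C c * X) * (C (b + a * c) * X + C a)

theorem map_gq {R S : Type*} [CommRing R] [CommRing S] (f : R →+* S) (a b c : R) :
    (gq a b c).map f = gq (f a) (f b) (f c) := by
  simp [gq]

theorem eval_gq {R : Type*} [CommRing R] (a b c y : R) :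
    (gq a b c).eval y = y * (1 + c * y) * ((b + a * c) * y + a) := by
  simp [gq]

private theorem gq_separable_linear {k : Type*} [Field k] (u v : k) (h : u ≠ 0 ∨ v ≠ 0) :
    (C u * X + C v : k[X]).Separable := by
  have hd : derivative (C u * X + C v : k[X]) = C u := by simp
  rw [Polynomial.Separable, hd]
  by_cases hu : u = 0
  · have hv : v ≠ 0 := h.resolve_left (not_not.mpr hu)
    refine ⟨C v⁻¹, 0, ?_⟩
    rw [hu, C_0, zero_mul, zero_add, zero_mul, add_zero, ← C_mul, inv_mul_cancel₀ hv, C_1]
  · refine ⟨0, C u⁻¹, ?_⟩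
    rw [zero_mul, zero_add, ← C_mul, inv_mul_cancel₀ hu, C_1]

theorem squarefree_gq {k : Type*} [Field k] (a b c : k) (ha : a ≠ 0) (hb : b ≠ 0) :
    Squarefree (gq a b c) := by
  have hCa : (C a⁻¹ * C a : k[X]) = 1 := by rw [← C_mul, inv_mul_cancel₀ ha, C_1]
  have hCb : (C b⁻¹ * C b : k[X]) = 1 := by rw [← C_mul, inv_mul_cancel₀ hb, C_1]
  have s₂ : (1 + C c * X : k[X]).Separable := by
    have := gq_separable_linear c 1 (Or.inr one_ne_zero)
    rwa [C_1, add_comm] at this
  have s₃ : (C (b + a * c) * X + C a : k[X]).Separable := gq_separable_linear _ a (Or.inr ha)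
  have c₁₂ : IsCoprime (X : k[X]) (1 + C c * X) := ⟨-C c, 1, by ring⟩
  have c₁₃ : IsCoprime (X : k[X]) (C (b + a * c) * X + C a) :=
    ⟨-(C a⁻¹ * C (b + a * c)), C a⁻¹, by linear_combination hCa⟩
  have c₂₃ : IsCoprime (1 + C c * X : k[X]) (C (b + a * c) * X + C a) := by
    refine ⟨C b⁻¹ * C (b + a * c), -(C b⁻¹ * C c), ?_⟩
    rw [C_add, C_mul]
    linear_combination hCb
  exact ((separable_X.mul s₂ c₁₂).mul s₃ (c₁₃.mul_left c₂₃)).squarefree

end Fermat.Agent.S15.Ext
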