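/-
S15, block EXT, leaf OFREPS (architect helper92): the Kummer cocycle paired with a torsion class is `IsSI`, given a
pair of good representatives.  MODEL: `S19/Int/OfReps.lean` (`isSI_weil_of_reps`), same tools.

For `σ ∈ I_A`:  `a.diff (gal σ) (hfix σ hσ)` represents `σ R - R`, `b.smul (gal σ)` represents `σ w`.
DISJOINTNESS of `σ a.D - a.D` and `σ b.D`:
  * `(σ b.D) P ≠ 0` and `a.D P ≠ 0`: `h2 P` and `AUnit.isSI_smul_place` (second part, for `σ⁻¹ ∈ I_A`) give
    `(σ⁻¹ P).ord b.f = 0`, i.e. `n * b.D (σ⁻¹ P) = 0`: contradiction;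
  * `(σ b.D) P ≠ 0` and `(σ a.D) P ≠ 0`: the case `σ = 1` of the previous point at `σ⁻¹ P`.
FORMULA (`weil_eq`, `weilRep`, `evDiv_mul`, `evDiv_inv`, `evDiv_sub`, `evDiv_smul`):
  `weil n (σ R - R) (σ w) = σ (c₀) * evDiv (σ b.f) a.D / evDiv a.g (σ b.D)`,  `c₀ := evDiv a.g b.D / evDiv b.f a.D`.
`c₀ ∈ A` (a product of powers of units `IsAU`), so `σ ↦ σ c₀` is `IsSI.apply`; the other two factors are treated
exactly as `e1`, `e2` in `isSI_weil_of_reps`.
-/
import Fermat.Agent.S15.Ext.Rep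
import Fermat.Agent.S19.Int.OfReps

set_option autoImplicit false

noncomputable section

namespace Fermat.Agent.S15.Ext

open AlgebraicCurve Fermat.Agent.S24.FF Fermat.Agent.S27 Fermat.Agent.S19 Fermat.Agent.S19.Weil
  Fermat.Agent.S19.Int

variable {F : Type} [Field F] [Algebra Qb F] [IsFF1 Qb F] [NonConst Qb F]
  {gal : Gal →* SemilinearAut Qb F} {A : ValuationSubring Qb}

theorem isSI_weil_kummer_of_reps
    (hgal : ∀ (σ : Gal) (a : Qb), SemilinearAut.baseAut (gal σ) a = σ a)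
    {x : F} (hx : ∀ σ : Gal, gal σ • x = x) {n : ℕ} (hn : 0 < n) {DP : Divisor Qb F}
    (hfix : ∀ σ ∈ A.inertiaSubgroupIn ℚ, gal σ • DP = DP) {R w : Pic0 Qb F}
    (a : KumRep n DP R) (b : TorsRep n w)
    (h1 : ∀ P : Place Qb F, b.D P ≠ 0 → AUnit gal A x a.g P)
    (h2 : ∀ P : Place Qb F, a.D P ≠ 0 → AUnit gal A x b.f P) :
    IsSI A (fun σ => weil n (gal σ • R - R) (gal σ • w)) := by
  -- the two families of products
  have e1 : ∀ m : Place Qb F → ℤ,
      IsSI A (fun σ => ∏ P ∈ b.D.support, ev (gal σ • P) a.g ^ m P) := by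
    intro m
    refine IsSI.prod _ (fun P σ => ev (gal σ • P) a.g ^ m P) fun P hP => ?_
    have hP' := h1 P (Finsupp.mem_support_iff.1 hP)
    have hu := hP'.ord_eq_zero.2.2
    refine (hP'.isSI_smul_place hgal hx).1.zpow ?_ ?_ _
    · rw [map_one, one_smul]
      exact hu.2.1
    · rw [map_one, one_smul]
      exact hu.2.2
  have e2 : ∀ m : Place Qb F → ℤ,
      IsSI A (fun σ => ∏ P ∈ a.D.support, ev P (gal σ • b.f) ^ m P) := by
    intro m
    refine IsSI.prod _ (fun P σ => ev P (gal σ • b.f) ^ m P) fun P hP => ?_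
    have hP' := h2 P (Finsupp.mem_support_iff.1 hP)
    have hu := hP'.ord_eq_zero.2.2
    refine (hP'.isSI_smul hgal).zpow ?_ ?_ _
    · rw [map_one, one_smul]
      exact hu.2.1
    · rw [map_one, one_smul]
      exact hu.2.2
  -- the constant `c₀`
  have hc₀ : evDiv a.g b.D / evDiv b.f a.D ∈ A := by
    have k1 := (e1 fun P => b.D P).mem (A.inertiaSubgroupIn ℚ).one_mem
    have k2 := (e2 fun P => -a.D P).mem (A.inertiaSubgroupIn ℚ).one_mem
    simp only [map_one, one_smul] at k1 k2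
    rw [div_eq_mul_inv, OfReps.evDiv_inv_eq]
    exact A.mul_mem _ _ k1 k2
  refine (((IsSI.apply hc₀).mul (e2 fun P => a.D P)).mul (e1 fun P => -b.D P)).congr
    fun σ hσ => ?_
  have hσ' : σ⁻¹ ∈ A.inertiaSubgroupIn ℚ := (A.inertiaSubgroupIn ℚ).inv_mem hσ
  have hbD : ∀ Q : Place Qb F, Q.ord b.f = 0 → b.D Q = 0 := by
    intro Q hQ
    have h4 := b.div.2 Q
    rw [hQ, Finsupp.smul_apply, smul_eq_mul] at h4
    rcases mul_eq_zero.1 h4 with h5 | h5
    · exact absurd (Int.natCast_eq_zero.1 h5) hn.ne'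
    · exact h5
  have hD : (b.smul (gal σ)).D = gal σ • b.D := rfl
  have hf : (b.smul (gal σ)).f = gal σ • b.f := rfl
  have hD' : (a.diff (gal σ) (hfix σ hσ)).D = gal σ • a.D - a.D := rfl
  have hf' : (a.diff (gal σ) (hfix σ hσ)).f = gal σ • a.g * (a.g)⁻¹ := rfl
  have hdisj : Disjoint (a.diff (gal σ) (hfix σ hσ)).D.support (b.smul (gal σ)).D.support := by
    rw [disjoint_comm, Pairing.disjoint_iff]
    intro P hP
    rw [hD, SemilinearAut.divisor_smul_apply] at hP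
    have z1 : a.D P = 0 := by
      by_contra hne
      have h3 := ((h2 P hne).isSI_smul_place hgal hx).2 σ⁻¹ hσ'
      rw [map_inv] at h3
      exact hP (hbD _ h3)
    have z2 : a.D ((gal σ)⁻¹ • P) = 0 := by
      by_contra hne
      exact hP (hbD _ (h2 _ hne).ord_eq_zero.2.1)
    rw [hD', Finsupp.sub_apply, SemilinearAut.divisor_smul_apply, z1, z2, sub_zero]
  have U1 : UnitOn a.g b.D := ⟨a.div.1, fun P hP => (h1 P hP).ord_eq_zero.2.1⟩
  have U2 : UnitOn b.f a.D := ⟨b.div.1, fun P hP => (h2 P hP).ord_eq_zero.2.1⟩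
  have U3 : UnitOn a.g (gal σ • b.D) := by
    refine ⟨a.div.1, fun P hP => ?_⟩
    rw [SemilinearAut.divisor_smul_apply] at hP
    have h3 := ((h1 _ hP).isSI_smul_place hgal hx).2 σ hσ
    rwa [smul_inv_smul] at h3
  have U4 : UnitOn (gal σ • b.f) a.D := by
    refine ⟨(U2.smul (gal σ)).1, fun P hP => ?_⟩
    have h3 := ((h2 P hP).isSI_smul_place hgal hx).2 σ⁻¹ hσ'
    rw [map_inv] at h3
    have h4 := SemilinearAut.ord_smul (gal σ) ((gal σ)⁻¹ • P) b.f
    rw [smul_inv_smul] at h4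
    rw [h4, h3]
  have E1 : ∏ P ∈ a.D.support, ev P (gal σ • b.f) ^ a.D P = evDiv (gal σ • b.f) a.D := rfl
  have E2 : ∏ P ∈ b.D.support, ev (gal σ • P) a.g ^ (-b.D P) = (evDiv a.g (gal σ • b.D))⁻¹ := by
    rw [OfReps.evDiv_smul_right, ← Finset.prod_inv_distrib]
    exact Finset.prod_congr rfl fun P _ => by rw [zpow_neg]
  rw [weil_eq hn (a.diff (gal σ) (hfix σ hσ)) (b.smul (gal σ)) hdisj, weilRep, hD, hf, hD', hf',
    evDiv_mul (U1.smul (gal σ)) U3.inv, evDiv_inv U3, evDiv_smul, evDiv_sub (U2.smul (gal σ)) U4,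
    evDiv_smul, hgal, hgal, E1, E2, map_div₀, div_eq_mul_inv, div_eq_mul_inv, div_eq_mul_inv,
    mul_inv, inv_inv]
  ring

end Fermat.Agent.S15.Ext
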