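/-
S15, block EXT, leaf UNRAM (architect helper92): `(x - c)⁻¹` is unramified outside the roots of `gq a b c`.
MODEL: `S18.Export.isUnramOutside_base_inv` (`S18/Export/IsChartBase.lean`).

By `isUnramOutside_descent` (with `ι = Descent.baseChangeMap _ (algebraMap K₀ Kbar)`, `Descent.baseChangeMap_algebraMap`,
`Export.baseChangeMap_xK`, `map_gq`) it is enough to work over `Kbar`; there `isUnramOutside_of_places`
(`Transcendental`: `transcendental_xK`, minus a constant, inverse `FF.transcendental_inv`; `IsFF1.finite`).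
If `(gq a b c).eval c' ≠ 0` (`eval_gq`) then `c' ≠ 0`, `1 + c c' ≠ 0`, `(b + a c) c' + a ≠ 0`;  `S18.Base.ord_inv_sub` turns
`ord ((x - c)⁻¹ - c')` into `ord ((x - c) - c'⁻¹) = ord (x - (c + c'⁻¹))`;  `D.ram₁ v (c + c'⁻¹)` applies since
`g₁.eval (c + c'⁻¹) * c' ^ 2 = (1 + c c') * ((b + a c) c' + a)`  (`D.xK Kbar` is by definition the element appearing in `D.ram₁`).
-/
import Fermat.Agent.S15.Ext.Gq
import Fermat.Agent.S18.Export.IsChartBase
import Fermat.Agent.S18.Base.Bases

set_option autoImplicit false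

noncomputable section

namespace Fermat.Agent.S15.Ext

open Polynomial IntermediateField ModularCurve AlgebraicCurve Fermat.Agent.S24 Fermat.Agent.S18

theorem isUnramOutside_sub_inv {K₀ : Type*} [Field K₀] [Algebra ℚ K₀] [Algebra K₀ Kbar] {M ℓ : ℕ}
    [NeZero M] (D : BaseData M ℓ) {a b : ℤ} (hg : D.g₁ = C a * X ^ 2 + C b * X) (c : K₀) :
    IsUnramOutside (D.xK K₀ - algebraMap K₀ (FK K₀ M) c)⁻¹ (gq (a : K₀) (b : K₀) c) := by
  have : CharZero K₀ := algebraRat.charZero K₀
  have : Algebra.IsAlgebraic K₀ Kbar := Export.isAlgebraic_Kbar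
  have htrbar : Transcendental Kbar (D.xK Kbar) := transcendental_xK D Kbar
  have htr1 : Transcendental Kbar
      (D.xK Kbar - algebraMap Kbar (FK Kbar M) (algebraMap K₀ Kbar c)) :=
    FF.transcendental_sub_const htrbar _
  have htr2 := FF.transcendental_inv htr1
  have : FiniteDimensional
      Kbar⟮(D.xK Kbar - algebraMap Kbar (FK Kbar M) (algebraMap K₀ Kbar c))⁻¹⟯ (FK Kbar M) :=
    FF.IsFF1.finite _ htr2
  apply isUnramOutside_descent
    (Descent.baseChangeMap (modularFunctionFieldFull M) (algebraMap K₀ Kbar))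
    (Descent.baseChangeMap_algebraMap (F₀ := modularFunctionFieldFull M) (algebraMap K₀ Kbar))
  rw [map_gq, map_inv₀, map_sub, Export.baseChangeMap_xK, Descent.baseChangeMap_algebraMap,
    map_intCast, map_intCast]
  refine isUnramOutside_of_places htr2 _ fun v c' hc' hv => ?_
  set cb : Kbar := algebraMap K₀ Kbar c with hcb
  rw [eval_gq] at hc'
  have hc0 : c' ≠ 0 := fun h => hc' (by rw [h]; ring)
  have e1 := Base.ord_inv_sub (D.xK Kbar - algebraMap Kbar (FK Kbar M) cb) v c' hc0 hv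
  have e2 : D.xK Kbar - algebraMap Kbar (FK Kbar M) cb - algebraMap Kbar (FK Kbar M) c'⁻¹
      = D.xK Kbar - algebraMap Kbar (FK Kbar M) (cb + c'⁻¹) := by
    rw [map_add]; ring
  rw [e2] at e1
  rw [e1] at hv ⊢
  refine D.ram₁ v (cb + c'⁻¹) ?_ hv
  intro h0
  apply hc'
  rw [hg] at h0
  simp only [Polynomial.map_add, Polynomial.map_mul, Polynomial.map_pow, Polynomial.map_C, map_X,
    eval_add, eval_mul, eval_pow, eval_C, eval_X] at h0
  simp only [eq_intCast] at h0
  have h1 : (1 + cb * c') * (((b : Kbar) + a * cb) * c' + a)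
      = ((a : Kbar) * (cb + c'⁻¹) ^ 2 + b * (cb + c'⁻¹)) * c' ^ 2 := by
    field_simp
    ring
  rw [mul_assoc, h1, h0, zero_mul, mul_zero]

end Fermat.Agent.S15.Ext
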