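/-
S15, block EXT, leaf MOEBIUS (architect helper92): a THIRD good chart `x ≠ c` of the model of `X₀(M)`, i.e. the chart of the
coordinate `(x - c)⁻¹`, `c ∈ A₀`.   MODEL: `S18/Export/IsChartBase.lean` (`isUnramOutside_base_inv`, `isChart_base_inv`).

`IsQuad D`: the branch polynomial is `g₁ = a X² + b X`, `a, b` units mod `ℓ` (true for the three bases, see `Quad.lean`), i.e.
`x` is unramified outside `0, -b/a, ∞`.  In the coordinate `y' = (x - c)⁻¹` the branch values are `0, -1/c, -a/(b + a c)`: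

    `gq a b c := X * (1 + c X) * ((b + a c) X + a)   ∈ A₀[X]`.

(M1) = `squarefree_gq` (`Gq.lean`);  (M2) = `isUnramOutside_sub_inv` (`Unram.lean`).
(M3) THIS FILE: `isChart_chart` with `Export.isVert_base`, `isCoord_inv (isCoord_sub_const (isCoord_base ..))`,
     `g := gq (a : A₀) (b : A₀) ⟨c, hc⟩`, `map_gq`; `a, b` are non zero in the residue field of `A₀`: `ℓ = 0` there (see the
     proof of `S18.squarefree_map_residue`), so `ℤ → k` factors through `ZMod ℓ` (`ZMod.castHom`/`ZMod.lift`), units go to units.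
-/
import Fermat.Agent.S15.Ext.Coord
import Fermat.Agent.S15.Ext.Unram
import Fermat.Agent.S18.Export.IsChartBase

set_option autoImplicit false

noncomputable section

namespace Fermat.Agent.S15.Ext

open Polynomial IntermediateField ModularCurve AlgebraicCurve Fermat.Agent.S24 Fermat.Agent.S18

/-- the branch polynomial of the base coordinate is `a X² + b X` with `a, b` units mod `ℓ`. -/
def IsQuad {M ℓ : ℕ} (D : BaseData M ℓ) : Prop :=
  ∃ a b : ℤ, IsUnit (a : ZMod ℓ) ∧ IsUnit (b : ZMod ℓ) ∧ D.g₁ = C a * X ^ 2 + C b * X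

variable {K₀ : Type*} [Field K₀] [Algebra ℚ K₀] {A₀ : ValuationSubring K₀} {ϖ₀ : K₀}
variable {M ℓ : ℕ} [NeZero M] [Fact ℓ.Prime]

omit [Algebra ℚ K₀] in
/-- an integer which is a unit modulo `ℓ` is not zero in the residue field of `A₀`. -/
theorem moebius_residue_intCast_ne_zero (h₀ : IsUnif A₀ ϖ₀) (hℓA : (ℓ : K₀) / ϖ₀ ∈ A₀) {n : ℤ}
    (hn : IsUnit (n : ZMod ℓ)) : IsLocalRing.residue A₀ (n : A₀) ≠ 0 := by
  -- `ℓ = 0` in the residue field
  have hℓ0 : ((ℓ : ℕ) : IsLocalRing.ResidueField A₀) = 0 := by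
    have h1 : IsLocalRing.residue A₀ (ℓ : A₀) = 0 := by
      rw [IsLocalRing.residue_eq_zero_iff, IsLocalRing.mem_maximalIdeal, mem_nonunits_iff]
      intro hu
      obtain ⟨u, hu⟩ := hu
      apply h₀.inv_notMem
      have h2 : ((u⁻¹ : A₀ˣ) : A₀) * (ℓ : A₀) = 1 := by rw [← hu]; exact u.inv_mul
      have h3 : (((u⁻¹ : A₀ˣ) : A₀) : K₀) * (ℓ : K₀) = 1 := by
        have := congrArg (Subtype.val) h2
        simpa using this
      have h4 : ϖ₀⁻¹ = (((u⁻¹ : A₀ˣ) : A₀) : K₀) * ((ℓ : K₀) / ϖ₀) := by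
        rw [← mul_div_assoc, h3, one_div]
      rw [h4]
      exact A₀.mul_mem _ _ (((u⁻¹ : A₀ˣ) : A₀)).2 hℓA
    rw [map_natCast] at h1
    exact h1
  have : CharP (IsLocalRing.ResidueField A₀) ℓ :=
    (CharP.charP_iff_prime_eq_zero (Fact.out : ℓ.Prime)).mpr hℓ0
  have h1 : IsLocalRing.residue A₀ (n : A₀) =
      ZMod.castHom (dvd_refl ℓ) (IsLocalRing.ResidueField A₀) (n : ZMod ℓ) := by
    rw [map_intCast, map_intCast]
  rw [h1]
  exact (hn.map _).ne_zero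

theorem isChart_sub_inv [Algebra K₀ Kbar] (h₀ : IsUnif A₀ ϖ₀) (hℓ : ¬ ℓ ∣ M)
    (hℓA : (ℓ : K₀) / ϖ₀ ∈ A₀) (D : BaseData M ℓ) (hD : IsQuad D) {c : K₀} (hc : c ∈ A₀)
    {Ow : ValuationSubring (FK K₀ M)} (hG : IsGauss A₀ ϖ₀ (FK K₀ M) Ow) :
    IsChart Ow (algebraMap K₀ (FK K₀ M) ϖ₀)
      (chart A₀.toSubring (D.xK K₀ - algebraMap K₀ (FK K₀ M) c)⁻¹) := by
  have : CharZero K₀ := algebraRat.charZero K₀
  obtain ⟨a, b, ha, hb, hg⟩ := hD
  have hV := Export.isVert_base h₀ hℓ hℓA D hG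
  have hx := isCoord_sub_const h₀ hV.const_mem (isCoord_base h₀ D hG) hc
  refine isChart_chart hV (isCoord_inv h₀ hV.unif hx) (gq (a : A₀) (b : A₀) ⟨c, hc⟩) ?_ ?_
  · rw [map_gq]
    exact squarefree_gq _ _ _ (moebius_residue_intCast_ne_zero h₀ hℓA ha)
      (moebius_residue_intCast_ne_zero h₀ hℓA hb)
  · rw [map_gq]
    have h1 : A₀.subtype (a : A₀) = (a : K₀) := map_intCast _ _
    have h2 : A₀.subtype (b : A₀) = (b : K₀) := map_intCast _ _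
    have h3 : A₀.subtype ⟨c, hc⟩ = c := rfl
    rw [h1, h2, h3]
    exact isUnramOutside_sub_inv D hg c

/-- Everything at once, for the coordinate `x' = x - c`. -/
theorem exists_good_model_sub [Algebra K₀ Kbar] (h₀ : IsUnif A₀ ϖ₀) (hℓ : ¬ ℓ ∣ M)
    (hℓA : (ℓ : K₀) / ϖ₀ ∈ A₀) (D : BaseData M ℓ) (hD : IsQuad D) {c : K₀} (hc : c ∈ A₀) :
    ∃ Ow : ValuationSubring (FK K₀ M),
      IsVert A₀ ϖ₀ Ow K₀⟮D.xK K₀⟯ ∧
      IsCoord A₀ ϖ₀ Ow K₀⟮D.xK K₀⟯ (D.xK K₀ - algebraMap K₀ (FK K₀ M) c) ∧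
      IsCoord A₀ ϖ₀ Ow K₀⟮D.xK K₀⟯ (D.xK K₀ - algebraMap K₀ (FK K₀ M) c)⁻¹ ∧
      IsChart Ow (algebraMap K₀ (FK K₀ M) ϖ₀)
        (chart A₀.toSubring (D.xK K₀ - algebraMap K₀ (FK K₀ M) c)) ∧
      IsChart Ow (algebraMap K₀ (FK K₀ M) ϖ₀)
        (chart A₀.toSubring (D.xK K₀ - algebraMap K₀ (FK K₀ M) c)⁻¹) := by
  obtain ⟨Ow, hG⟩ := exists_isGauss h₀ M
  have hV := Export.isVert_base h₀ hℓ hℓA D hG
  have hx := isCoord_sub_const h₀ hV.const_mem (isCoord_base h₀ D hG) hc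
  refine ⟨Ow, hV, hx, isCoord_inv h₀ hV.unif hx, ?_, isChart_sub_inv h₀ hℓ hℓA D hD hc hG⟩
  rw [chart_sub_const _ _ hc]
  exact Export.isChart_base h₀ hℓ hℓA D hG

end Fermat.Agent.S15.Ext
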