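/-
S15, block EXT, leaf SLR' (architect helper92): the semilocal root lemma with a SEMILOCAL divisibility hypothesis.

`S19.Int.slr` asks `RootData B ϖ n h` (the divisor of `h` is divisible by `n` on the whole chart).  Here `h = g_R` has
divisor `n D_R - D_P`, which is divisible by `n` only away from `D_P`.  But the proof of `slr` uses the hypothesis only for
the valuation rings `V = primeValSubring F p` of the primes `p` of the semilocal ring `R = S⁻¹ B`, and these contain the
inverses of the elements of `S`.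

HOW TO PROVE: copy `exists_semilocal_root_aux`, `exists_semilocal_root` of `S19/Int/SLR/Semilocal.lean` and `slr` of
`S19/Int/SLR.lean` (those files are frozen: copy under NEW names into this file), replacing `hdiv : DivHyp B π m h` by
`hdiv : DivHypS B π m h S` below.  The only change in the proofs: at the single place where `hdiv V ...` is applied
(`V := primeValSubring F p hp`) supply the extra argument: for `s ∈ S`, `algebraMap B R s` is a unit of `R`
(`IsLocalization.map_units`), its inverse `r : R` satisfies `algebraMap R F r = (algebraMap B F s)⁻¹`, and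
`algebraMap_mem_primeValSubring hp r`.  All other lemmas (`sl_*`, `ufd_of_quotient_pid_jac`, ...) are imported.
In `slr'` the case "`(ϖ, g) = ⊤`" is as in `slr`.  NOTE `n = 0` is allowed.
-/
import Fermat.Agent.S19.Int.SLR

set_option autoImplicit false

noncomputable section

namespace Fermat.Agent.S15.Ext

open Fermat.Agent.S18 Fermat.Agent.S18.Abs Fermat.Agent.S19.Int

/-- `DivHyp` restricted to the valuation rings in which the elements of `S` are invertible. -/
def DivHypS (B : Type*) {F : Type*} [CommRing B] [Field F] [Algebra B F] (π : B) (m : ℕ) (h : F)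
    (S : Submonoid B) : Prop :=
  ∀ V : ValuationSubring F, IsPrincipalIdealRing V → V ≠ ⊤ →
    (∀ b : B, algebraMap B F b ∈ V) → (algebraMap B F π)⁻¹ ∈ V →
    (∀ s ∈ S, (algebraMap B F s)⁻¹ ∈ V) →
      ∃ g : F, g ≠ 0 ∧ g ^ m * h ∈ V ∧ (g ^ m * h)⁻¹ ∈ V

section SemilocalAbs

variable {B F : Type*} [CommRing B] [IsDomain B] [IsNoetherianRing B] [Field F] [Algebra B F]
  [IsFractionRing B F]

theorem semilocal_root_aux (O : ValuationSubring F) (π : B) (hπ0 : π ≠ 0)
    (hQEP : ∀ b : B, algebraMap B F b / algebraMap B F π ∈ O → π ∣ b)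
    (hBO : ∀ b : B, algebraMap B F b ∈ O)
    (hOmax : ∀ y ∈ O, y⁻¹ ∉ O → y / algebraMap B F π ∈ O)
    (m : ℕ) (h : F) (hh0 : h ≠ 0) (hhO : h ∈ O) (hhO' : h⁻¹ ∈ O)
    (S : Submonoid B) (hdiv : DivHypS B π m h S) (hSπ : ∀ s ∈ S, ∀ c, s + π * c ∈ S) (hS3 : ∀ s ∈ S, ¬ π ∣ s)
    (hS4 : ∀ a c, a * c ∈ S → a ∈ S)
    (R : Type*) [CommRing R] [Algebra B R] [IsLocalization S R] [Algebra R F]
    [IsScalarTower B R F] [IsFractionRing R F]
    [IsDomain (R ⧸ Ideal.span {algebraMap B R π})]
    [IsPrincipalIdealRing (R ⧸ Ideal.span {algebraMap B R π})] :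
    ∃ (g : F) (a b : B), g ≠ 0 ∧ a ∈ S ∧ b ∈ S ∧
      g ^ m * h * algebraMap B F b = algebraMap B F a := by
  classical
  have hS0 : S ≤ nonZeroDivisors B := fun s hs =>
    mem_nonZeroDivisors_of_ne_zero fun h0 => hS3 s hs (h0 ▸ dvd_zero π)
  have : IsDomain R := IsLocalization.isDomain_of_le_nonZeroDivisors (R := B) (S := R)
    (M := S) hS0
  have : IsNoetherianRing R := IsLocalization.isNoetherianRing S R inferInstance
  set πR : R := algebraMap B R π with hπR
  have hinjBR : Function.Injective (algebraMap B R) := IsLocalization.injective R hS0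
  have hπR0 : πR ≠ 0 := by
    rw [hπR]; exact (map_ne_zero_iff _ hinjBR).2 hπ0
  have hπRjac : πR ∈ (⊥ : Ideal R).jacobson := sl_mem_jacobson π S hSπ R
  have : UniqueFactorizationMonoid R := ufd_of_quotient_pid_jac πR hπRjac hπR0
  have hπRprime : Prime πR := by
    rw [← Ideal.span_singleton_prime hπR0]
    exact (Ideal.Quotient.isDomain_iff_prime _).1 inferInstance
  have hπF : algebraMap B F π ≠ 0 := by
    simpa using hπ0
  have hmapπ : algebraMap R F πR = algebraMap B F π := by
    rw [hπR, ← IsScalarTower.algebraMap_apply]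
  have hQEPR : ∀ r : R, algebraMap R F r / algebraMap B F π ∈ O → πR ∣ r :=
    fun r hr => sl_qep O π hQEP hBO S hS3 R r hr
  have hRO : ∀ r : R, algebraMap R F r ∈ O := sl_mem_O O π hQEP hBO hOmax S hS3 R
  -- the `p`-adic unit hypothesis
  have H : PUnitUpToPow R m h := by
    intro p hp
    by_cases hpπ : p ∣ πR
    · -- `p ~ π`
      have hass : Associated p πR := hp.associated_of_dvd hπRprime hpπ
      obtain ⟨a, b, hab, e⟩ := IsFractionRing.exists_reduced_fraction R h
      have hb0 : (b : R) ≠ 0 := nonZeroDivisors.ne_zero b.2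
      have hbF : algebraMap R F b ≠ 0 := by simp
      rw [IsFractionRing.mk'_eq_div] at e
      have e' : h * algebraMap R F b = algebraMap R F a := by rw [← e]; field_simp
      refine ⟨1, a, b, one_ne_zero, ?_, ?_, by rw [one_pow, one_mul, e']⟩
      · intro hpa
        have hπa : πR ∣ a := hass.symm.dvd.trans hpa
        obtain ⟨a', ha'⟩ := id hπa
        have hπb : πR ∣ (b : R) := by
          apply hQEPR
          have : algebraMap R F b / algebraMap B F π = h⁻¹ * algebraMap R F a' := by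
            rw [← hmapπ] at hπF ⊢
            have : algebraMap R F b = h⁻¹ * algebraMap R F a := by rw [← e']; field_simp
            rw [this, ha', map_mul]
            field_simp
          rw [this]
          exact O.mul_mem _ _ hhO' (hRO a')
        exact hπRprime.not_isUnit (hab hπa hπb)
      · intro hpb
        have hπb : πR ∣ (b : R) := hass.symm.dvd.trans hpb
        obtain ⟨b', hb'⟩ := id hπb
        have hπa : πR ∣ a := by
          apply hQEPR
          have : algebraMap R F a / algebraMap B F π = h * algebraMap R F b' := by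
            rw [← hmapπ] at hπF ⊢
            rw [← e', hb', map_mul]
            field_simp
          rw [this]
          exact O.mul_mem _ _ hhO (hRO b')
        exact hπRprime.not_isUnit (hab hπa hπb)
    · set V := primeValSubring F p hp
      obtain ⟨g, hg, h1, h2⟩ := hdiv V inferInstance (primeValSubring_ne_top hp)
        (fun b => by
          rw [IsScalarTower.algebraMap_apply B R F]
          exact algebraMap_mem_primeValSubring hp _)
        (by rw [← hmapπ]; exact inv_mem_primeValSubring hp hpπ)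
        (fun s hs => by
          obtain ⟨u, hu⟩ := IsLocalization.map_units R (⟨s, hs⟩ : S)
          have hu' : (u : R) = algebraMap B R s := hu
          have e : (algebraMap B F s)⁻¹ = algebraMap R F ((u⁻¹ : Rˣ) : R) := by
            rw [IsScalarTower.algebraMap_apply B R F, ← hu']
            symm
            apply eq_inv_of_mul_eq_one_left
            rw [← map_mul, Units.inv_mul, map_one]
          rw [e]
          exact algebraMap_mem_primeValSubring hp _)
      obtain ⟨a, b, ha, hb, e⟩ :=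
        exists_of_mem_of_inv_mem hp (mul_ne_zero (pow_ne_zero _ hg) hh0) h1 h2
      exact ⟨g, a, b, hg, ha, hb, e⟩
  obtain ⟨g, u, hg, e⟩ := exists_root_unit m hh0 H
  obtain ⟨a, s, hu⟩ := IsLocalization.exists_mk'_eq S (u : R)
  obtain ⟨a', s', hu'⟩ := IsLocalization.exists_mk'_eq S ((u⁻¹ : Rˣ) : R)
  refine ⟨g, a, s, hg, ?_, s.2, ?_⟩
  · apply hS4 a a'
    have h1 : IsLocalization.mk' R a s * IsLocalization.mk' R a' s' = 1 := by
      rw [hu, hu', Units.mul_inv]
    rw [← IsLocalization.mk'_mul, IsLocalization.mk'_eq_iff_eq_mul, one_mul] at h1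
    have h2 : a * a' = ((s * s' : S) : B) := hinjBR h1
    rw [h2]
    exact (s * s').2
  · rw [e, ← hu, IsScalarTower.algebraMap_apply B R F (s : B), ← map_mul,
      IsLocalization.mk'_spec, ← IsScalarTower.algebraMap_apply]

/-- **Semilocal root lemma**, abstract form. -/
theorem semilocal_root (O : ValuationSubring F) (π : B) (hπ0 : π ≠ 0)
    (hQEP : ∀ b : B, algebraMap B F b / algebraMap B F π ∈ O → π ∣ b)
    (hBO : ∀ b : B, algebraMap B F b ∈ O)
    (hOmax : ∀ y ∈ O, y⁻¹ ∉ O → y / algebraMap B F π ∈ O)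
    (hπO : (algebraMap B F π)⁻¹ ∉ O)
    (m : ℕ) (h : F) (hh0 : h ≠ 0) (hhO : h ∈ O) (hhO' : h⁻¹ ∈ O)
    [IsDedekindDomain (B ⧸ Ideal.span {π})]
    (g : B) (hg : algebraMap B F g / algebraMap B F π ∉ O)
    (S : Submonoid B) (hdiv : DivHypS B π m h S) (hSπ : ∀ s ∈ S, ∀ c, s + π * c ∈ S) (hSg : ∀ s ∈ S, ∀ c, s + g * c ∈ S)
    (hS3 : ∀ s ∈ S, ¬ π ∣ s) (hS4 : ∀ a c, a * c ∈ S → a ∈ S) :
    ∃ (t : F) (a b : B), t ≠ 0 ∧ a ∈ S ∧ b ∈ S ∧
      t ^ m * h * algebraMap B F b = algebraMap B F a := by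
  have hS0 : S ≤ nonZeroDivisors B := fun s hs =>
    mem_nonZeroDivisors_of_ne_zero fun h0 => hS3 s hs (h0 ▸ dvd_zero π)
  let R := Localization.subalgebra.ofField F S hS0
  have : IsLocalization S R := Localization.subalgebra.isLocalization_ofField F S hS0
  have hprime : Prime (algebraMap B R π) := sl_prime O π hπ0 hQEP hBO hOmax hπO S hS3 R
  have hπF : algebraMap B F π ≠ 0 := by simpa using hπ0
  have hg' : ¬ algebraMap B R π ∣ algebraMap B R g := by
    rintro ⟨c, hc⟩
    apply hg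
    have h1 : algebraMap B F g = algebraMap B F π * algebraMap R F c := by
      rw [IsScalarTower.algebraMap_apply B R F g, hc, map_mul,
        ← IsScalarTower.algebraMap_apply B R F π]
    rw [h1, mul_div_cancel_left₀ _ hπF]
    exact sl_mem_O O π hQEP hBO hOmax S hS3 R c
  obtain ⟨h1, h2⟩ := sl_quotient_pid π g S hSg hS3 R hprime hg'
  exact semilocal_root_aux O π hπ0 hQEP hBO hOmax m h hh0 hhO hhO' S hdiv hSπ hS3 hS4 R

end SemilocalAbs

variable {F : Type*} [Field F]

/-- the semilocal divisibility hypothesis, for a subring `B` of `F`. -/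
def SemiRoot (B : Subring F) (ϖ g : F) (n : ℕ) (h : F) : Prop :=
  ∀ V : ValuationSubring F, IsPrincipalIdealRing V → V ≠ ⊤ → (∀ b ∈ B, b ∈ V) → ϖ⁻¹ ∈ V →
    (∀ t : F, UnitMod B ϖ g t → t⁻¹ ∈ V) → ∃ y : F, y ≠ 0 ∧ y ^ n * h ∈ V ∧ (y ^ n * h)⁻¹ ∈ V

/-- **SLR'.** -/
theorem slr' {Ow : ValuationSubring F} {ϖ : F} (hϖ : IsUnif Ow ϖ) {B : Subring F}
    (hB : IsChart Ow ϖ B) {n : ℕ} {g : F} (hg : g ∈ B) (hg' : g / ϖ ∉ Ow)
    {h : F} (hh : h ∈ Ow) (hh' : h⁻¹ ∈ Ow) (hh0 : h ≠ 0) (hr : SemiRoot B ϖ g n h) :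
    ∃ s a b : F, s ≠ 0 ∧ a ≠ 0 ∧ b ≠ 0 ∧ UnitMod B ϖ g a ∧ UnitMod B ϖ g b ∧ a⁻¹ ∈ Ow ∧ b⁻¹ ∈ Ow ∧
      s ^ n * h * b = a := by
  by_cases hI : ∃ r ∈ B, ∃ r' ∈ B, 1 + ϖ * r + g * r' = 0
  · -- the unit ideal
    obtain ⟨r, hr, r', hr', e⟩ := hI
    have hall : ∀ a ∈ B, UnitMod B ϖ g a := fun a ha =>
      ⟨ha, 0, B.zero_mem, r, hr, r', hr', by rw [mul_zero, e]⟩
    obtain ⟨b, hb, hb0, hbinv, hbh⟩ := hB.loc h hh
    refine ⟨1, b * h, b, one_ne_zero, mul_ne_zero hb0 hh0, hb0, hall _ hbh, hall _ hb, ?_, hbinv,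
      by ring⟩
    rw [mul_inv]
    exact Ow.mul_mem _ _ hbinv hh'
  · have hϖ0 := hϖ.ne_zero
    have hπB := hB.unif_mem
    set π : B := ⟨ϖ, hπB⟩ with hπ
    set gB : B := ⟨g, hg⟩ with hgB
    have hπ0 : π ≠ 0 := fun h0 => hϖ0 (congrArg Subtype.val h0)
    have : IsNoetherianRing B := hB.noeth
    have : IsFractionRing B F := hB.isFractionRing hϖ
    have : IsDedekindDomain (B ⧸ Ideal.span {π}) := hB.ded π rfl
    have hQEP : ∀ b : B, algebraMap B F b / algebraMap B F π ∈ Ow → π ∣ b := by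
      intro b hb
      refine ⟨⟨(b : F) / ϖ, hB.qep b b.2 hb⟩, ?_⟩
      apply Subtype.val_injective
      show (b : F) = ϖ * ((b : F) / ϖ)
      field_simp
    have hBO : ∀ b : B, algebraMap B F b ∈ Ow := fun b => hB.le b b.2
    have hOmax : ∀ y ∈ Ow, y⁻¹ ∉ Ow → y / algebraMap B F π ∈ Ow := fun y hy hy' =>
      hϖ.div_mem hy hy'
    set S := unitModSubmonoid B ϖ g hπB hg with hS
    have hSπ : ∀ s ∈ S, ∀ c, s + π * c ∈ S := by
      rintro s ⟨-, s', hs', r, hr, r', hr', e⟩ c
      refine ⟨(s + π * c).2, s', hs', r + c * s', B.add_mem hr (B.mul_mem c.2 hs'), r', hr', ?_⟩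
      show ((s : F) + ϖ * (c : F)) * s' = _
      rw [add_mul, e]
      ring
    have hSg : ∀ s ∈ S, ∀ c, s + gB * c ∈ S := by
      rintro s ⟨-, s', hs', r, hr, r', hr', e⟩ c
      refine ⟨(s + gB * c).2, s', hs', r, hr, r' + c * s', B.add_mem hr' (B.mul_mem c.2 hs'), ?_⟩
      show ((s : F) + g * (c : F)) * s' = _
      rw [add_mul, e]
      ring
    have hS3 : ∀ s ∈ S, ¬ π ∣ s := by
      rintro s ⟨-, s', hs', r, hr, r', hr', e⟩ ⟨c, rfl⟩
      apply hI
      refine ⟨r - c * s', B.sub_mem hr (B.mul_mem c.2 hs'), r', hr', ?_⟩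
      have e' : ϖ * (c : F) * s' = 1 + ϖ * r + g * r' := e
      linear_combination -e'
    have hS4 : ∀ a c, a * c ∈ S → a ∈ S := by
      rintro a c ⟨-, s', hs', r, hr, r', hr', e⟩
      refine ⟨a.2, c * s', B.mul_mem c.2 hs', r, hr, r', hr', ?_⟩
      have e' : (a : F) * (c : F) * s' = 1 + ϖ * r + g * r' := e
      rw [← e']
      ring
    have hdiv : DivHypS B π n h S := fun V hV hVt hBV hπV hSV =>
      hr V hV hVt (fun b hb => hBV ⟨b, hb⟩) hπV (fun t ht => hSV ⟨t, ht.1⟩ ht)
    obtain ⟨t, a, b, ht, ha, hb, e⟩ := semilocal_root Ow π hπ0 hQEP hBO hOmax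
      hϖ.inv_notMem n h hh0 hh hh' gB hg' S hdiv hSπ hSg hS3 hS4
    have hne : ∀ s ∈ S, (s : F) ≠ 0 := by
      intro s hs h0
      apply hS3 s hs
      have : s = 0 := Subtype.val_injective h0
      rw [this]
      exact dvd_zero π
    have hinv : ∀ s ∈ S, (s : F)⁻¹ ∈ Ow := by
      intro s hs
      by_contra hcon
      exact hS3 s hs (hQEP s (hOmax _ (hBO s) hcon))
    exact ⟨t, a, b, ht, hne a ha, hne b hb, ha, hb, hinv a ha, hinv b hb, e⟩

end Fermat.Agent.S15.Ext
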