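/-
S15, block EXT, leaf PAIRABS (architect helper92), THIS FILE: (P1): the pair lemma, abstract form.  MODEL: `exists_pair` (`S19/Int/SLR.lean`)
and `pb_pair_abs` (`S19/Int/PairBar.lean`).

(P1) `exists_pair'`: `slr'` on `B₁` at `x'` for `gR` gives `sR, a₁, b₁`; `u := sR ^ n * gR = a₁ / b₁` is a Gauss unit;
     `h₃.loc u` gives `b ∈ B₃` (a Gauss unit) with `a := b * u ∈ B₃`; `a * b * q ∈ B₃` is a Gauss unit, so
     `a * b * q / ϖ ∉ Ow` (`IsUnif.not_both`); `S19.Int.slr` on `B₃` at `a * b * q` for `fw`.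
(P2) `semiRoot_of_places`: let `V` be as in `SemiRoot`.  `V` contains the constants (`c = a / ϖ₀ ^ k`,
     `IsUnif.exists_pow_mul_mem`; `A₀ ⊆ chart`), so it is a place `w` of `F / K₀` (structure `Place`).  By `hR w`:
     * `n ∣ w.ord h`: `y := t ^ (-(w.ord h / n))`, `t` a uniformiser (`FF.exists_ord_eq_one`), `w.ord (y ^ n * h) = 0`;
     * `w.ord x' < 0`: impossible, `x' ∈ chart ⊆ V`;
     * `0 < w.ord (1 - e x')`, `e ∈ A₀`: `t := 1 - e x'` satisfies `UnitMod` (`t * 1 = 1 + ϖ * 0 + x' * (-e)`), so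
       `t⁻¹ ∈ V`, i.e. `w.ord t ≤ 0`: contradiction.
(P3) `pairOut_abs`: normalise `gR`, `fw` by constants (`S19.Int.pb_exists_const_unit`), `rootData_chart` +
     `rootData_of_places` for `fw` in the chart `x'⁻¹` as in `pb_pair_abs`, (P2) for `gR`, `q := aeval x'⁻¹ p` is in the chart
     (`ChartBasic.aeval_mem_chart`) and is a Gauss unit: otherwise `q / ϖ ∈ Ow` (`IsUnif.div_mem`) and `hx'.transc` makes
     the leading coefficient `1` divisible by `ϖ₀`.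
-/
import Fermat.Agent.S15.Ext.Semilocal
import Fermat.Agent.S15.Ext.Defs
import Fermat.Agent.S19.Int.PairBar

set_option autoImplicit false

noncomputable section

namespace Fermat.Agent.S15.Ext

open AlgebraicCurve Fermat.Agent.S18 Fermat.Agent.S19.Int IntermediateField

section P1

variable {F : Type*} [Field F]

/-- (P1) -/
theorem exists_pair' {Ow : ValuationSubring F} {ϖ : F} (hϖ : IsUnif Ow ϖ) {B₁ B₃ : Subring F}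
    (h₁ : IsChart Ow ϖ B₁) (h₃ : IsChart Ow ϖ B₃) {x' : F} (hx' : x' ∈ B₁) (hx'' : x' / ϖ ∉ Ow)
    {n : ℕ} (hn : 0 < n) {gR fw q : F} (hR0 : gR ≠ 0) (hR : gR ∈ Ow) (hR' : gR⁻¹ ∈ Ow)
    (hw0 : fw ≠ 0) (hw : fw ∈ Ow) (hw' : fw⁻¹ ∈ Ow) (hq : q ∈ B₃) (hq0 : q ≠ 0) (hq' : q⁻¹ ∈ Ow)
    (rR : SemiRoot B₁ ϖ x' n gR) (rw : RootData B₃ ϖ n fw) :
    ∃ sR sw a₁ b₁ a b aw bw : F, sR ≠ 0 ∧ sw ≠ 0 ∧ a₁ ≠ 0 ∧ b₁ ≠ 0 ∧ a ≠ 0 ∧ b ≠ 0 ∧ aw ≠ 0 ∧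
      bw ≠ 0 ∧ UnitMod B₁ ϖ x' a₁ ∧ UnitMod B₁ ϖ x' b₁ ∧ sR ^ n * gR * b₁ = a₁ ∧
      a ∈ B₃ ∧ b ∈ B₃ ∧ sR ^ n * gR * b = a ∧
      UnitMod B₃ ϖ (a * b * q) aw ∧ UnitMod B₃ ϖ (a * b * q) bw ∧ sw ^ n * fw * bw = aw := by
  obtain ⟨sR, a₁, b₁, hsR, ha₁, hb₁, ua₁, ub₁, ia₁, ib₁, e₁⟩ :=
    slr' hϖ h₁ hx' hx'' hR hR' hR0 rR
  have hu0 : sR ^ n * gR ≠ 0 := mul_ne_zero (pow_ne_zero _ hsR) hR0
  have hu : sR ^ n * gR = a₁ * b₁⁻¹ := by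
    rw [← e₁]
    field_simp
  have huO : sR ^ n * gR ∈ Ow := by
    rw [hu]
    exact Ow.mul_mem _ _ (h₁.le _ ua₁.1) ib₁
  have huO' : (sR ^ n * gR)⁻¹ ∈ Ow := by
    rw [hu, mul_inv, inv_inv]
    exact Ow.mul_mem _ _ ia₁ (h₁.le _ ub₁.1)
  obtain ⟨b, hb, hb0, hbinv, hbu⟩ := h₃.loc _ huO
  have ha0 : b * (sR ^ n * gR) ≠ 0 := mul_ne_zero hb0 hu0
  have hab : b * (sR ^ n * gR) * b * q ∈ B₃ := B₃.mul_mem (B₃.mul_mem hbu hb) hq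
  have hab' : b * (sR ^ n * gR) * b * q / ϖ ∉ Ow := by
    intro hcon
    apply hϖ.not_both (mul_ne_zero (mul_ne_zero ha0 hb0) hq0) hcon
    rw [mul_inv, mul_inv, mul_inv]
    exact Ow.mul_mem _ _ (Ow.mul_mem _ _ (Ow.mul_mem _ _ hbinv huO') hbinv) hq'
  obtain ⟨sw, aw, bw, hsw, haw, hbw, uaw, ubw, -, -, ew⟩ :=
    slr hϖ h₃ hn hab hab' hw hw' hw0 rw
  exact ⟨sR, sw, a₁, b₁, b * (sR ^ n * gR), b, aw, bw, hsR, hsw, ha₁, hb₁, ha0, hb0, haw, hbw,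
    ua₁, ub₁, e₁, hbu, hb, by ring, uaw, ubw, ew⟩

end P1

end Fermat.Agent.S15.Ext
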