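/-
S15, block EXT, leaf PAIRABS (architect helper92), THIS FILE: (P2): the pair lemma, abstract form.  MODEL: `exists_pair` (`S19/Int/SLR.lean`)
and `pb_pair_abs` (`S19/Int/PairBar.lean`).

(P1) `exists_pair'`: `slr'` on `B₁` at `x'` for `gR` gives `sR, a₁, b₁`; `u := sR ^ n * gR = a₁ / b₁` is a Gauss unit;
     `h₃.loc u` gives `b ∈ B₃` (a Gauss unit) with `a := b * u ∈ B₃`; `a * b * q ∈ B₃` is a Gauss unit, so
     `a * b * q / ϖ ∉ Ow` (`IsUnif.not_both`); `S19.Int.slr` on `B₃` at `a * b * q` for `fw`.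
(P2) `semiRoot_of_places`: let `V` be as in `SemiRoot`.  `V` contains the constants (`c = a / ϖ₀ ^ k`,
     `IsUnif.exists_pow_mul_mem`; `A₀ ⊆ chart`), so it is a place `w` of `F / K₀` (structure `Place`).  By `hR w`:
     * `n ∣ w.ord h`: `y := t ^ (-(w.ord h / n))`, `t` a uniformiser (`FF.exists_ord_eq_one`), `w.ord (y ^ n * h) = 0`;
     * `w.ord x' < 0`: impossible, `x' ∈ chart ⊆ V`;
     * `0 < w.ord (1 - e x')`, `e ∈ A₀`: `t := 1 - e x'` satisfies `UnitMod` (`t * 1 = 1 + ϖ * 0 + x' * (-e)`), so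
       `t⁻¹ ∈ V`, i.e. `w.ord t ≤ 0`: contradiction.
(P3) `pairOut_abs`: normalise `gR`, `fw` by constants (`S19.Int.pb_exists_const_unit`), `rootData_chart` +
     `rootData_of_places` for `fw` in the chart `x'⁻¹` as in `pb_pair_abs`, (P2) for `gR`, `q := aeval x'⁻¹ p` is in the chart
     (`ChartBasic.aeval_mem_chart`) and is a Gauss unit: otherwise `q / ϖ ∈ Ow` (`IsUnif.div_mem`) and `hx'.transc` makes
     the leading coefficient `1` divisible by `ϖ₀`.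
-/
import Fermat.Agent.S15.Ext.Semilocal
import Fermat.Agent.S15.Ext.Defs
import Fermat.Agent.S19.Int.PairBar

set_option autoImplicit false

noncomputable section

namespace Fermat.Agent.S15.Ext

open AlgebraicCurve Fermat.Agent.S18 Fermat.Agent.S19.Int IntermediateField

variable {K₀ F : Type*} [Field K₀] [Field F] [Algebra K₀ F]

/-- (P2) -/
theorem semiRoot_of_places {A₀ : ValuationSubring K₀} {ϖ₀ : K₀} (h₀ : IsUnif A₀ ϖ₀) {x' : F}
    {n : ℕ} {h : F} (hh : h ≠ 0)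
    (hR : ∀ w : Place K₀ F, (n : ℤ) ∣ w.ord h ∨ w.ord x' < 0 ∨
      ∃ e ∈ A₀, 0 < w.ord (1 - algebraMap K₀ F e * x')) :
    SemiRoot (chart A₀.toSubring x') (algebraMap K₀ F ϖ₀) x' n h := by
  intro V hPIR hVtop hB hϖinv hU
  -- constants of `A₀` and the coordinate are in the chart
  have hA : ∀ a ∈ A₀, algebraMap K₀ F a ∈ chart A₀.toSubring x' := fun a ha =>
    map_le_chart A₀.toSubring ⟨a, ha, rfl⟩
  have hx : x' ∈ chart A₀.toSubring x' := self_mem_chart A₀.toSubring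
  have hϖ0 : ϖ₀ ≠ 0 := by
    rintro rfl
    exact h₀.inv_notMem (by rw [inv_zero]; exact A₀.zero_mem)
  -- all constants are in `V`
  have hconst : ∀ c : K₀, algebraMap K₀ F c ∈ V := by
    intro c
    obtain ⟨r, hr⟩ := h₀.exists_pow_mul_mem c
    have h1 : algebraMap K₀ F (ϖ₀ ^ r * c) ∈ V := hB _ (hA _ hr)
    have h2 : ((algebraMap K₀ F ϖ₀)⁻¹) ^ r * algebraMap K₀ F (ϖ₀ ^ r * c) ∈ V :=
      V.mul_mem _ _ (V.pow_mem hϖinv r) h1
    have h3 : ((algebraMap K₀ F ϖ₀)⁻¹) ^ r * algebraMap K₀ F (ϖ₀ ^ r * c) = algebraMap K₀ F c := by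
      have hne : algebraMap K₀ F ϖ₀ ≠ 0 := (_root_.map_ne_zero _).2 hϖ0
      rw [map_mul, map_pow, ← mul_assoc, ← mul_pow, inv_mul_cancel₀ hne, one_pow, one_mul]
    rwa [h3] at h2
  let w : Place K₀ F := ⟨V, hconst, hVtop, hPIR⟩
  have hwV : ∀ f : F, f ∈ V ↔ 0 ≤ w.ord f := fun f => Fermat.Agent.S24.FF.mem_iff_ord_nonneg w
  rcases hR w with ⟨k, hk⟩ | hneg | ⟨e, he, hpos⟩
  · obtain ⟨t, ht⟩ := Fermat.Agent.S24.FF.exists_ord_eq_one w
    have ht0 : t ≠ 0 := Fermat.Agent.S24.FF.ne_zero_of_ord_ne_zero w (by rw [ht]; exact one_ne_zero)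
    have hy0 : t ^ (-k) ≠ 0 := zpow_ne_zero _ ht0
    have hord : w.ord ((t ^ (-k)) ^ n * h) = 0 := by
      rw [w.ord_mul (pow_ne_zero _ hy0) hh, Fermat.Agent.S24.FF.ord_pow, w.ord_zpow, ht, hk]
      ring
    refine ⟨t ^ (-k), hy0, (hwV _).2 hord.ge, (hwV _).2 ?_⟩
    rw [w.ord_inv, hord]
    simp
  · exact absurd ((hwV _).1 (hB _ hx)) (not_le.2 hneg)
  · exfalso
    have hmem : (1 - algebraMap K₀ F e * x') ∈ chart A₀.toSubring x' :=
      Subring.sub_mem _ (Subring.one_mem _) (Subring.mul_mem _ (hA _ he) hx)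
    have hum : UnitMod (chart A₀.toSubring x') (algebraMap K₀ F ϖ₀) x'
        (1 - algebraMap K₀ F e * x') :=
      ⟨hmem, 1, Subring.one_mem _, 0, Subring.zero_mem _, -algebraMap K₀ F e,
        Subring.neg_mem _ (hA _ he), by ring⟩
    have h1 := (hwV _).1 (hU _ hum)
    rw [w.ord_inv] at h1
    omega

end Fermat.Agent.S15.Ext
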