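/-
S15, block EXT, leaf PAIRABS (architect helper92), THIS FILE: (P3): the pair lemma, abstract form.  MODEL: `exists_pair` (`S19/Int/SLR.lean`)
and `pb_pair_abs` (`S19/Int/PairBar.lean`).

(P1) `exists_pair'`: `slr'` on `B₁` at `x'` for `gR` gives `sR, a₁, b₁`; `u := sR ^ n * gR = a₁ / b₁` is a Gauss unit;
     `h₃.loc u` gives `b ∈ B₃` (a Gauss unit) with `a := b * u ∈ B₃`; `a * b * q ∈ B₃` is a Gauss unit, so
     `a * b * q / ϖ ∉ Ow` (`IsUnif.not_both`); `S19.Int.slr` on `B₃` at `a * b * q` for `fw`.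
(P2) `semiRoot_of_places`: let `V` be as in `SemiRoot`.  `V` contains the constants (`c = a / ϖ₀ ^ k`,
     `IsUnif.exists_pow_mul_mem`; `A₀ ⊆ chart`), so it is a place `w` of `F / K₀` (structure `Place`).  By `hR w`:
     * `n ∣ w.ord h`: `y := t ^ (-(w.ord h / n))`, `t` a uniformiser (`FF.exists_ord_eq_one`), `w.ord (y ^ n * h) = 0`;
     * `w.ord x' < 0`: impossible, `x' ∈ chart ⊆ V`;
     * `0 < w.ord (1 - e x')`, `e ∈ A₀`: `t := 1 - e x'` satisfies `UnitMod` (`t * 1 = 1 + ϖ * 0 + x' * (-e)`), so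
       `t⁻¹ ∈ V`, i.e. `w.ord t ≤ 0`: contradiction.
(P3) `pairOut_abs`: normalise `gR`, `fw` by constants (`S19.Int.pb_exists_const_unit`), `rootData_chart` +
     `rootData_of_places` for `fw` in the chart `x'⁻¹` as in `pb_pair_abs`, (P2) for `gR`, `q := aeval x'⁻¹ p` is in the chart
     (`ChartBasic.aeval_mem_chart`) and is a Gauss unit: otherwise `q / ϖ ∈ Ow` (`IsUnif.div_mem`) and `hx'.transc` makes
     the leading coefficient `1` divisible by `ϖ₀`.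
-/
import Fermat.Agent.S15.Ext.Pair1
import Fermat.Agent.S15.Ext.SemiRootPlaces

set_option autoImplicit false

noncomputable section

namespace Fermat.Agent.S15.Ext

open AlgebraicCurve Fermat.Agent.S18 Fermat.Agent.S19.Int IntermediateField

variable {K₀ F : Type*} [Field K₀] [Field F] [Algebra K₀ F]

/-- (P3) -/
theorem pairOut_abs [CharZero K₀] {A₀ : ValuationSubring K₀} {ϖ₀ : K₀} {Ow : ValuationSubring F}
    {E : IntermediateField K₀ F} {x' : F} (h₀ : IsUnif A₀ ϖ₀) (hV : IsVert A₀ ϖ₀ Ow E)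
    (hx : IsCoord A₀ ϖ₀ Ow E x') (hx' : IsCoord A₀ ϖ₀ Ow E x'⁻¹)
    (hC₁ : IsChart Ow (algebraMap K₀ F ϖ₀) (chart A₀.toSubring x'))
    (hC₃ : IsChart Ow (algebraMap K₀ F ϖ₀) (chart A₀.toSubring x'⁻¹))
    (htr : Transcendental K₀ x') [FiniteDimensional K₀⟮x'⟯ F] [FiniteDimensional K₀⟮x'⁻¹⟯ F]
    {n : ℕ} (hn : 0 < n) {gR fw : F} (hR0 : gR ≠ 0) (hw0 : fw ≠ 0)
    (hw : ∀ w : Place K₀ F, (n : ℤ) ∣ w.ord fw)
    (hR : ∀ w : Place K₀ F, (n : ℤ) ∣ w.ord gR ∨ w.ord x' < 0 ∨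
      ∃ e ∈ A₀, 0 < w.ord (1 - algebraMap K₀ F e * x'))
    (p : Polynomial K₀) (hp : p.Monic) (hpA : ∀ i, p.coeff i ∈ A₀) :
    PairOut A₀.toSubring ϖ₀ x' n gR fw (Polynomial.aeval x'⁻¹ p) := by
  have htr' : Transcendental K₀ x'⁻¹ := Fermat.Agent.S24.FF.transcendental_inv htr
  obtain ⟨cR, hcR, hgR, hgR'⟩ := pb_exists_const_unit hV.unif hR0
  obtain ⟨cw, hcw, hgw, hgw'⟩ := pb_exists_const_unit hV.unif hw0
  have hc0 : ∀ c : K₀, c ≠ 0 → algebraMap K₀ F c ≠ 0 := fun c hc => by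
    rwa [Ne, map_eq_zero]
  have hord : ∀ (c : K₀) (f : F), c ≠ 0 → f ≠ 0 → ∀ w : Place K₀ F,
      w.ord (algebraMap K₀ F c * f) = w.ord f := by
    intro c f hc hf w
    rw [w.ord_mul (hc0 c hc) hf, Fermat.Agent.S24.FF.ord_algebraMap, zero_add]
  have hgR0 := mul_ne_zero (hc0 cR hcR) hR0
  have hgw0 := mul_ne_zero (hc0 cw hcw) hw0
  have rw' := rootData_chart hV hx' hgw hgw' (rootData_of_places htr' hn.ne' hgw0
    (fun w _ => by rw [hord cw fw hcw hw0]; exact hw w))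
  have rR : SemiRoot (chart A₀.toSubring x') (algebraMap K₀ F ϖ₀) x' n
      (algebraMap K₀ F cR * gR) :=
    semiRoot_of_places h₀ hgR0 (fun w => by rw [hord cR gR hcR hR0]; exact hR w)
  have hXc : ∀ i, (Polynomial.X : Polynomial K₀).coeff i ∈ A₀ := by
    intro i
    rw [Polynomial.coeff_X]
    split_ifs
    · exact one_mem _
    · exact zero_mem _
  have hxmem : x' ∈ chart A₀.toSubring x' := by
    have := ChartBasic.aeval_mem_chart (x := x') (Polynomial.X : Polynomial K₀) hXc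
    rwa [Polynomial.aeval_X] at this
  have hxn : x' / algebraMap K₀ F ϖ₀ ∉ Ow := by
    intro h
    have h1 := hx.transc Polynomial.X hXc (by rwa [Polynomial.aeval_X]) 1
    rw [Polynomial.coeff_X_one, one_div] at h1
    exact h₀.inv_notMem h1
  have hq : Polynomial.aeval x'⁻¹ p ∈ chart A₀.toSubring x'⁻¹ :=
    ChartBasic.aeval_mem_chart (x := x'⁻¹) p hpA
  have hq0 : Polynomial.aeval x'⁻¹ p ≠ 0 := fun h =>
    hp.ne_zero ((transcendental_iff.1 htr') p h)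
  have hq' : (Polynomial.aeval x'⁻¹ p)⁻¹ ∈ Ow := by
    by_contra hcon
    have h1 := hV.unif.div_mem (hC₃.le _ hq) hcon
    have h2 := hx'.transc p hpA h1 p.natDegree
    rw [Polynomial.coeff_natDegree, hp.leadingCoeff, one_div] at h2
    exact h₀.inv_notMem h2
  obtain ⟨sR, sw, a₁, b₁, a, b, aw, bw, h1, h2, h3, h4, h5, h6, h7, h8, h9, h10, h11, h12, h13,
    h14, h15, h16, h17⟩ := exists_pair' hV.unif hC₁ hC₃ hxmem hxn hn hgR0 hgR hgR' hgw0 hgw hgw'
      hq hq0 hq' rR rw'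
  exact ⟨cR, cw, sR, sw, a₁, b₁, a, b, aw, bw, hcR, hcw, h1, h2, h3, h4, h5, h6, h7, h8,
    h9, h10, h11, h12, h13, h14, h15, h16, h17⟩

end Fermat.Agent.S15.Ext
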