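/-
S15, block EXT, leaf TRANSPORT (architect helper92): `PairOut` is preserved by a map of function fields over a map of
constant fields.  MODEL: `pb_pair_transport` (`S19/Int/PairBar.lean`); tools `pb_map_mem_chart`, `pb_unitMod_map`.
-/
import Fermat.Agent.S15.Ext.Defs
import Fermat.Agent.S19.Int.PairBar

set_option autoImplicit false

noncomputable section

namespace Fermat.Agent.S15.Ext

open AlgebraicCurve Fermat.Agent.S18 Fermat.Agent.S19.Int

variable {K₀ K F₀ F : Type*} [Field K₀] [Field K] [Field F₀] [Field F] [Algebra K₀ F₀]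
  [Algebra K F] [Algebra K₀ K]

theorem PairOut.map (ι : F₀ →+* F)
    (hι : ∀ c : K₀, ι (algebraMap K₀ F₀ c) = algebraMap K F (algebraMap K₀ K c))
    {A₀ : Subring K₀} {A : Subring K} (hA : ∀ a ∈ A₀, algebraMap K₀ K a ∈ A)
    {ϖ₀ : K₀} {x' : F₀} {n : ℕ} {gR fw q : F₀} (h : PairOut A₀ ϖ₀ x' n gR fw q) :
    PairOut A (algebraMap K₀ K ϖ₀) (ι x') n (ι gR) (ι fw) (ι q) := by
  obtain ⟨cR, cw, sR, sw, a₁, b₁, a, b, aw, bw, hcR, hcw, h1, h2, h3, h4, h5, h6, h7, h8,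
    h9, h10, h11, h12, h13, h14, h15, h16, h17⟩ := h
  have hne : ∀ y : F₀, y ≠ 0 → ι y ≠ 0 := fun y hy => (map_ne_zero ι).2 hy
  have hne' : ∀ c : K₀, c ≠ 0 → algebraMap K₀ K c ≠ 0 := fun c hc =>
    (map_ne_zero (algebraMap K₀ K)).2 hc
  have hch : ∀ y z : F₀, z ∈ chart A₀ y → ι z ∈ chart A (ι y) := fun y z hz =>
    pb_map_mem_chart ι hι hA hz
  have hch' : ∀ z : F₀, z ∈ chart A₀ x'⁻¹ → ι z ∈ chart A (ι x')⁻¹ := fun z hz => by
    rw [← map_inv₀]
    exact hch _ z hz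
  refine ⟨algebraMap K₀ K cR, algebraMap K₀ K cw, ι sR, ι sw, ι a₁, ι b₁, ι a, ι b, ι aw, ι bw,
    hne' _ hcR, hne' _ hcw, hne _ h1, hne _ h2, hne _ h3, hne _ h4, hne _ h5, hne _ h6, hne _ h7,
    hne _ h8, ?_, ?_, ?_, hch' _ h12, hch' _ h13, ?_, ?_, ?_, ?_⟩
  · have := pb_unitMod_map ι (hch x') h9
    rwa [hι] at this
  · have := pb_unitMod_map ι (hch x') h10
    rwa [hι] at this
  · rw [← h11, map_mul, map_mul, map_mul, map_pow, hι]
  · rw [← h14, map_mul, map_mul, map_mul, map_pow, hι]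
  · have := pb_unitMod_map ι hch' h15
    rwa [hι, map_mul, map_mul] at this
  · have := pb_unitMod_map ι hch' h16
    rwa [hι, map_mul, map_mul] at this
  · rw [← h17, map_mul, map_mul, map_mul, map_pow, hι]

end Fermat.Agent.S15.Ext
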