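/-
S15, block EXT, leaf PAIRBAR (architect helper92): the pair lemma over `ℚ̄`.  MODEL: `exists_pair_bar` (`S19/Int/PairBar.lean`).

`ext_descent` (with `C := {c} ∪ {ev P y' | P ∈ T}`), `exists_isUnif_comap`, `exists_good_model_sub`, `pairOut_abs` with
`p := ∏_{P ∈ T} (X - C (ev P y'))`, `PairOut.map`.
-/
import Fermat.Agent.S15.Ext.Descent
import Fermat.Agent.S15.Ext.PairAbs
import Fermat.Agent.S15.Ext.Transport
import Fermat.Agent.S15.Ext.Moebius
import Fermat.Agent.S19.Int.Eval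

set_option autoImplicit false

noncomputable section

namespace Fermat.Agent.S15.Ext

open AlgebraicCurve ModularCurve Fermat.Agent.S24 Fermat.Agent.S18 Fermat.Agent.S24.FF
  Fermat.Agent.S18.Descent Fermat.Agent.S27 Fermat.Agent.S19 Fermat.Agent.S19.Int

section Abs

variable {K F : Type*} [Field K] [Field F] [Algebra K F] [IsAlgClosed K] [IsFF1 K F]

/-- a place where `x'⁻¹` is regular: either a pole of `x'`, or a zero of `1 - e x'`, `e` the value of `x'⁻¹`. -/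
theorem pairBar_place {x' : F} (htr : Transcendental K x') (P : Place K F)
    (h : 0 ≤ P.ord x'⁻¹) :
    0 < P.ord x'⁻¹ ∨ 0 < P.ord (1 - algebraMap K F (ev P x'⁻¹) * x') := by
  rcases h.lt_or_eq with h | h
  · exact Or.inl h
  right
  have hx0 : x' ≠ 0 := by
    rintro rfl
    exact htr (isAlgebraic_zero)
  have hi0 : x'⁻¹ ≠ 0 := inv_ne_zero hx0
  have he : ev P x'⁻¹ ≠ 0 := ev_ne_zero_of_ord_eq_zero hi0 h.symm
  have h1 : IsVal P x' (ev P x'⁻¹)⁻¹ := by
    have := (isVal_ev h.le).inv he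
    rwa [inv_inv] at this
  have h2 : IsVal P (1 - algebraMap K F (ev P x'⁻¹) * x') (1 - ev P x'⁻¹ * (ev P x'⁻¹)⁻¹) := by
    have h3 : IsVal P (1 : F) (1 : K) := by
      have := isVal_algebraMap (F := F) P (1 : K)
      rwa [map_one] at this
    exact h3.sub ((isVal_algebraMap P _).mul h1)
  rw [mul_inv_cancel₀ he, sub_self, isVal_zero_iff] at h2
  rcases h2 with h2 | h2
  · exfalso
    apply htr
    have h4 : x' = algebraMap K F (ev P x'⁻¹)⁻¹ := by
      rw [map_inv₀]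
      exact eq_inv_of_mul_eq_one_right (sub_eq_zero.1 h2).symm
    rw [h4]
    exact isAlgebraic_algebraMap _
  · exact h2

end Abs

variable {M ℓ : ℕ} [NeZero M] [Fact ℓ.Prime]

open IntermediateField Polynomial in
theorem pairOut_bar (hℓ : ¬ ℓ ∣ M) (D : BaseData M ℓ) (hD : IsQuad D) (A : ValuationSubring Qb)
    (hA : A.LiesOverPrime ℓ) {n : ℕ} (hn : 0 < n) {c : Kbar} (hc : c ∈ A)
    (T : Finset (Place Kbar (FN M)))
    (hT : ∀ P ∈ T, 0 ≤ P.ord (D.xK Kbar - algebraMap Kbar (FN M) c)⁻¹ ∧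
      ev P (D.xK Kbar - algebraMap Kbar (FN M) c)⁻¹ ∈ A)
    {gR fw : FN M} (hR0 : gR ≠ 0) (hw0 : fw ≠ 0)
    (hw : ∀ P : Place Kbar (FN M), (n : ℤ) ∣ P.ord fw)
    (hR : ∀ P : Place Kbar (FN M), P ∉ T → (n : ℤ) ∣ P.ord gR) :
    ∃ (ϖ : Kbar) (q : FN M), ϖ ∈ A.nonunits ∧
      q ∈ chart A.toSubring (D.xK Kbar - algebraMap Kbar (FN M) c)⁻¹ ∧
      (∀ P ∈ T, ev P q = 0) ∧
      PairOut A.toSubring ϖ (D.xK Kbar - algebraMap Kbar (FN M) c) n gR fw q := by
  classical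
  set x' : FN M := D.xK Kbar - algebraMap Kbar (FN M) c with hx'def
  let C : Finset Kbar := insert c (T.image fun P => ev P x'⁻¹)
  obtain ⟨K₀, hK₀fin, gR₀, fw₀, hC, hΦR, hΦw, hw₀, hR₀⟩ := ext_descent T C hw hR
  have hR₀0 : gR₀ ≠ 0 := by
    rintro rfl
    exact hR0 (by rw [← hΦR, map_zero])
  have hw₀0 : fw₀ ≠ 0 := by
    rintro rfl
    exact hw0 (by rw [← hΦw, map_zero])
  obtain ⟨ϖ₀, h₀, hℓA⟩ := exists_isUnif_comap A hA K₀
  set A₀ : ValuationSubring K₀ := A.comap (algebraMap K₀ Kbar) with hA₀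
  let c₀ : K₀ := ⟨c, hC c (Finset.mem_insert_self _ _)⟩
  have hc₀ : c₀ ∈ A₀ := hc
  obtain ⟨Ow, hV, hx, hxi, hC₁, hC₃⟩ := exists_good_model_sub h₀ hℓ hℓA D hD hc₀
  set x₀ : FK K₀ M := D.xK K₀ - algebraMap K₀ (FK K₀ M) c₀ with hx₀def
  let Φ : FK K₀ M →+* FN M := baseChangeMap (modularFunctionFieldFull M) (algebraMap K₀ Kbar)
  have hι : ∀ a : K₀, Φ (algebraMap K₀ (FK K₀ M) a) = algebraMap Kbar (FN M) (algebraMap K₀ Kbar a) :=
    fun a => baseChangeMap_algebraMap (algebraMap K₀ Kbar) a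
  have hΦx : Φ x₀ = x' := by
    rw [hx₀def, map_sub, hι, hx'def]
    congr 1
  have htr0 : ∀ (L : Type) [Field L] [Algebra ℚ L] (a : L),
      Transcendental L (D.xK L - algebraMap L (FK L M) a) := by
    intro L _ _ a h
    apply transcendental_xK D L
    have := h.add (isAlgebraic_algebraMap (A := FK L M) a)
    rwa [sub_add_cancel] at this
  have htr : Transcendental K₀ x₀ := htr0 K₀ c₀
  have htrbar : Transcendental Kbar x' := htr0 Kbar c
  have htr' : Transcendental K₀ x₀⁻¹ := FF.transcendental_inv htr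
  have : FiniteDimensional K₀⟮x₀⟯ (FK K₀ M) := IsFF1.finite _ htr
  have : FiniteDimensional K₀⟮x₀⁻¹⟯ (FK K₀ M) := IsFF1.finite _ htr'
  -- the values of `x'⁻¹` at the points of `T`
  have heK : ∀ P ∈ T, ev P x'⁻¹ ∈ K₀ := fun P hP =>
    hC _ (Finset.mem_insert_of_mem (Finset.mem_image_of_mem _ hP))
  let e₀ : Place Kbar (FN M) → K₀ := fun P => if h : P ∈ T then ⟨ev P x'⁻¹, heK P h⟩ else 0
  have he₀ : ∀ P ∈ T, algebraMap K₀ Kbar (e₀ P) = ev P x'⁻¹ := by
    intro P hP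
    simp only [e₀, dif_pos hP]
    rfl
  have he₀A : ∀ P, e₀ P ∈ A₀ := by
    intro P
    by_cases hP : P ∈ T
    · show algebraMap K₀ Kbar (e₀ P) ∈ A
      rw [he₀ P hP]
      exact (hT P hP).2
    · simp only [e₀, dif_neg hP]
      exact zero_mem _
  let pA : Polynomial A₀ := ∏ P ∈ T, (X - Polynomial.C ⟨e₀ P, he₀A P⟩)
  let p : Polynomial K₀ := pA.map A₀.subtype
  have hp : p.Monic := (monic_prod_of_monic _ _ fun P _ => monic_X_sub_C _).map _
  have hpA : ∀ i, p.coeff i ∈ A₀ := fun i => by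
    rw [coeff_map]
    exact (pA.coeff i).2
  have hpe : p = ∏ P ∈ T, (X - Polynomial.C (e₀ P)) := by
    simp only [p, pA, Polynomial.map_prod, Polynomial.map_sub, Polynomial.map_X, Polynomial.map_C]
    rfl
  have hRw : ∀ w : Place K₀ (FK K₀ M), (n : ℤ) ∣ w.ord gR₀ ∨ w.ord x₀ < 0 ∨
      ∃ e ∈ A₀, 0 < w.ord (1 - algebraMap K₀ (FK K₀ M) e * x₀) := by
    intro w
    rcases hR₀ w with h | ⟨P, hP, hPw⟩
    · exact Or.inl h
    right
    rcases pairBar_place htrbar P (hT P hP).1 with h | h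
    · left
      rw [← hΦx, ← map_inv₀, hPw.ord_pos_iff, w.ord_inv] at h
      omega
    · right
      refine ⟨e₀ P, he₀A P, ?_⟩
      rw [← hPw.ord_pos_iff, map_sub, map_one, map_mul]
      erw [hι, hΦx, he₀ P hP]
      exact h
  have h2 := pairOut_abs h₀ hV hx hxi hC₁ hC₃ htr hn hR₀0 hw₀0 hw₀ hRw p hp hpA
  have h3 := PairOut.map (K := Kbar) (F := FN M) Φ hι (A := A.toSubring) (fun a ha => ha) h2
  rw [hΦx, hΦR, hΦw] at h3
  have hq : Φ (aeval x₀⁻¹ p) = aeval x'⁻¹ (p.map (algebraMap K₀ Kbar)) := by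
    rw [descChart_map_aeval Φ hι, map_inv₀, hΦx]
  refine ⟨algebraMap K₀ Kbar ϖ₀, Φ (aeval x₀⁻¹ p), pb_mem_nonunits h₀, ?_, ?_, h3⟩
  · have h4 := pb_map_mem_chart (K := Kbar) (F := FN M) Φ hι (A := A.toSubring)
      (A₀ := A₀.toSubring) (fun a ha => ha) (ChartBasic.aeval_mem_chart (x := x₀⁻¹) p hpA)
    rwa [map_inv₀, hΦx] at h4
  · intro P hP
    rw [hq]
    have h5 := (isVal_ev (hT P hP).1).aeval (p.map (algebraMap K₀ Kbar))
    rw [ev_eq_of_isVal h5, hpe, Polynomial.map_prod, Polynomial.eval_prod]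
    refine Finset.prod_eq_zero hP ?_
    rw [Polynomial.map_sub, Polynomial.map_X, Polynomial.map_C, eval_sub, eval_X, eval_C,
      he₀ P hP, sub_self]

end Fermat.Agent.S15.Ext
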