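/-
S15, block EXT, leaf REP (architect helper92): calculus of `KumRep` (copy of `S19/Weil/Rep.lean`).
-/
import Fermat.Agent.S15.Ext.Defs

set_option autoImplicit false
set_option linter.unusedSectionVars false

noncomputable section

namespace Fermat.Agent.S15.Ext

open AlgebraicCurve Fermat.Agent.S24.FF Fermat.Agent.S27 Fermat.Agent.S19 Fermat.Agent.S19.Weil

variable {K F : Type*} [Field K] [Field F] [Algebra K F] [IsAlgClosed K] [CharZero K] [IsFF1 K F]
  [NonConst K F]

/-- existence (`cls_surjective`, `rep_cls_natCast_zsmul`, `cls_sub`, `cls_eq_zero_iff`). -/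
theorem exists_kumRep {n : ℕ} {DP : Divisor K F} (hdeg : Divisor.degree DP = 0) {R : Pic0 K F}
    (hR : (n : ℤ) • R = cls DP) : Nonempty (KumRep n DP R) := by
  obtain ⟨D₀, hdeg₀, hcls₀⟩ := cls_surjective R
  have hd : Divisor.degree ((n : ℤ) • D₀) = 0 := by rw [map_zsmul, hdeg₀, smul_zero]
  have h0 : cls ((n : ℤ) • D₀ - DP) = 0 := by
    rw [cls_sub hd hdeg, rep_cls_natCast_zsmul hdeg₀, hcls₀, hR, sub_self]
  obtain ⟨g, hg⟩ := (cls_eq_zero_iff (by rw [map_sub, hd, hdeg, sub_zero])).mp h0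
  exact ⟨⟨D₀, g, hdeg₀, hcls₀, hg⟩⟩

/-- multiply by an `n`-th power. -/
def KumRep.move {n : ℕ} {DP : Divisor K F} {R : Pic0 K F} (a : KumRep n DP R) (s : F)
    (G : Divisor K F) (hs : IsDivOf G s) : KumRep n DP R where
  D := a.D + G
  g := s ^ n * a.g
  deg := by rw [map_add, a.deg, hs.degree, add_zero]
  cls_eq := by rw [cls_add a.deg hs.degree, a.cls_eq, rep_cls_eq_zero hs, add_zero]
  div := by
    have h := rep_isDivOf_mul (rep_isDivOf_pow hs n) a.div
    have e : (n : ℤ) • G + ((n : ℤ) • a.D - DP) = (n : ℤ) • (a.D + G) - DP := by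
      rw [smul_add]; abel
    rwa [e] at h

/-- rescale the function. -/
def KumRep.scale {n : ℕ} {DP : Divisor K F} {R : Pic0 K F} (a : KumRep n DP R) (c : K)
    (hc : c ≠ 0) : KumRep n DP R where
  D := a.D
  g := algebraMap K F c * a.g
  deg := a.deg
  cls_eq := a.cls_eq
  div := by
    have h := rep_isDivOf_mul (rep_isDivOf_const (F := F) hc) a.div
    rwa [zero_add] at h

/-- the representative `(σ D - D, σ g / g)` of `σ R - R`. -/
def KumRep.diff {n : ℕ} {DP : Divisor K F} {R : Pic0 K F} (a : KumRep n DP R)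
    (s : SemilinearAut K F) (hs : s • DP = DP) : TorsRep n (s • R - R) where
  D := s • a.D - a.D
  f := s • a.g * (a.g)⁻¹
  deg := by rw [map_sub, SemilinearAut.degree_smul, a.deg, sub_zero]
  cls_eq := by
    rw [cls_sub (by rw [SemilinearAut.degree_smul, a.deg]) a.deg, cls_smul s a.deg, a.cls_eq]
  div := by
    have h1 := IsDivOf.smul s a.div
    have h2 : IsDivOf (-((n : ℤ) • a.D - DP)) (a.g)⁻¹ :=
      ⟨inv_ne_zero a.div.1, fun v => by rw [Finsupp.neg_apply, a.div.2, v.ord_inv]⟩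
    have h := rep_isDivOf_mul h1 h2
    have e : s • ((n : ℤ) • a.D - DP) + -((n : ℤ) • a.D - DP) = (n : ℤ) • (s • a.D - a.D) := by
      rw [smul_sub, hs, smul_comm, smul_sub]
      abel
    rwa [e] at h

end Fermat.Agent.S15.Ext
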