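/-
S15, block EXT, leaf REPS (architect helper92): existence of a pair of good representatives.
MODEL: `exists_good_reps` (`S19/Int/Reps.lean`).

`T := DP.support`; `c` from `exists_good_const`; `x' := x - c`, `y' := x'⁻¹`; `a0` from `exists_kumRep`, `b0` from `exists_torsRep`;
`pairOut_bar` for `a0.g`, `b0.f`;  `ra := (a0.scale cR).move sR`, `rb := (b0.scale cw).move sw`, `g := ra.g`, `f := rb.f`:
  `g b₁ = a₁` (`a₁, b₁` invertible mod `(ϖ, x')` in the chart `x'`), `g b = a` (chart `y'`), `f bw = aw` (invertible mod `(ϖ, a b q)`, chart `y'`).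
`chart_dichotomy y' P`: (I) `0 ≤ ord_P y'`, `y'(P) ∈ A`, or (II) `0 ≤ ord_P x'`, `x'(P) ∈ A.nonunits` (`inv_inv`).
(h1) `rb.D P ≠ 0`:  (II) `a₁, b₁` units at `P` (`UnitMod.isAU`, `self_mem_chart`): `aunit_of_chart_sub`.
     (I) `ev P (a b q) ∉ A.nonunits` (else `aw, bw` units at `P`, `ord_P f = 0`); so `ev P a`, `ev P b` are units: `aunit_of_chart_sub_inv`.
(h2) `ra.D P ≠ 0`:  (II) `a₁, b₁` units, so `ord_P g = 0`, `n ra.D P = DP P`, so `P ∈ T`, `0 ≤ ord_P y'`, `y'(P) ∈ A`,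
     `x'(P) y'(P) = 1` with `x'(P) ∈ A.nonunits`: contradiction.
     (I) `ev P (a b q) = 0`: if `P ∈ T` because `ev P q = 0`; if not, `ord_P g = n ra.D P ≠ 0` so `a` or `b` vanishes at `P`.
     So `aw, bw` are units at `P`: `aunit_of_chart_sub_inv`.
-/
import Fermat.Agent.S15.Ext.PairBar
import Fermat.Agent.S15.Ext.Const
import Fermat.Agent.S15.Ext.Convert
import Fermat.Agent.S15.Ext.Rep

set_option autoImplicit false

noncomputable section

namespace Fermat.Agent.S15.Ext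

open AlgebraicCurve ModularCurve Fermat.Agent.S24 Fermat.Agent.S24.FF Fermat.Agent.S27
  Fermat.Agent.S18 Fermat.Agent.S19 Fermat.Agent.S19.Weil Fermat.Agent.S19.Int

variable {M ℓ : ℕ} [NeZero M] [Fact ℓ.Prime]

theorem exists_good_kumReps (hℓ : ¬ ℓ ∣ M) (D : BaseData M ℓ) (hD : IsQuad D)
    (A : ValuationSubring Qb) (hA : A.LiesOverPrime ℓ) {n : ℕ} (hn : 0 < n)
    {DP : Divisor Kbar (FN M)} (hdeg : Divisor.degree DP = 0) {R w : Pic0 Kbar (FN M)}
    (hR : (n : ℤ) • R = cls DP) (hw : (n : ℤ) • w = 0) :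
    ∃ (a : KumRep n DP R) (b : TorsRep n w),
      (∀ P : Place Kbar (FN M), b.D P ≠ 0 → AUnit (galM M) A (D.xK Kbar) a.g P) ∧
      (∀ P : Place Kbar (FN M), a.D P ≠ 0 → AUnit (galM M) A (D.xK Kbar) b.f P) := by
  classical
  obtain ⟨c, hc, hT⟩ := exists_good_const A (Fact.out : ℓ.Prime) hA (D.xK Kbar) DP.support
  set x' : FN M := D.xK Kbar - algebraMap Kbar (FN M) c with hx'
  have hx'0 : x' ≠ 0 := by
    intro h0
    apply transcendental_xK D Kbar
    rw [sub_eq_zero.1 h0]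
    exact isAlgebraic_algebraMap c
  obtain ⟨a0⟩ := exists_kumRep hdeg hR
  obtain ⟨b0, -⟩ := exists_torsRep hw (∅ : Finset (Place Kbar (FN M)))
  have hdw : ∀ P : Place Kbar (FN M), (n : ℤ) ∣ P.ord b0.f := fun P => by
    rw [← b0.div.2 P, Finsupp.smul_apply, smul_eq_mul]
    exact dvd_mul_right _ _
  have hdR : ∀ P : Place Kbar (FN M), P ∉ DP.support → (n : ℤ) ∣ P.ord a0.g := fun P hP => by
    rw [← a0.div.2 P, Finsupp.sub_apply, Finsupp.smul_apply, Finsupp.notMem_support_iff.1 hP,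
      sub_zero, smul_eq_mul]
    exact dvd_mul_right _ _
  obtain ⟨ϖ, q, hϖ, hq, hqT, cR, cw, sR, sw, a₁, b₁, a, b, aw, bw, hcR, hcw, hsR, hsw, ha₁, hb₁,
    ha, hb, haw, hbw, Ua₁, Ub₁, e₁, haC, hbC, e₂, Uaw, Ubw, e₃⟩ :=
    pairOut_bar hℓ D hD A hA hn hc DP.support hT a0.div.1 b0.div.1 hdw hdR
  obtain ⟨GR, hGR⟩ := exists_isDivOf (K := Kbar) sR hsR
  obtain ⟨Gw, hGw⟩ := exists_isDivOf (K := Kbar) sw hsw
  let ra : KumRep n DP R := (a0.scale cR hcR).move sR GR hGR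
  let rb : TorsRep n w := (b0.scale cw hcw).move sw Gw hGw
  have fa : ra.g = sR ^ n * (algebraMap Kbar (FN M) cR * a0.g) := rfl
  have fb : rb.f = sw ^ n * (algebraMap Kbar (FN M) cw * b0.f) := rfl
  rw [← fa] at e₁ e₂
  rw [← fb] at e₃
  have hn' : (n : ℤ) ≠ 0 := Int.natCast_ne_zero.2 hn.ne'
  have ordb : ∀ P : Place Kbar (FN M), rb.D P ≠ 0 → P.ord rb.f ≠ 0 := fun P hP => by
    rw [← rb.div.2 P, Finsupp.smul_apply, smul_eq_mul]
    exact mul_ne_zero hn' hP
  have orda : ∀ P : Place Kbar (FN M), P.ord ra.g = (n : ℤ) * ra.D P - DP P := fun P => by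
    rw [← ra.div.2 P, Finsupp.sub_apply, Finsupp.smul_apply, smul_eq_mul]
  have habq : a * b * q ∈ chart A.toSubring x'⁻¹ := mul_mem (mul_mem haC hbC) hq
  -- the chart `x'`, where `x'` reduces to zero
  have hII : ∀ P : Place Kbar (FN M), 0 ≤ P.ord x' → ev P x' ∈ A.nonunits →
      AUnit (galM M) A (D.xK Kbar) ra.g P := fun P hy hyA =>
    aunit_of_chart_sub hℓ D A hA hc Ua₁.1 Ub₁.1 e₁ hy (Reps.mem_of_mem_nonunits hyA)
      (Ua₁.isAU hϖ (self_mem_chart _) P hy (Reps.mem_of_mem_nonunits hyA) hyA)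
      (Ub₁.isAU hϖ (self_mem_chart _) P hy (Reps.mem_of_mem_nonunits hyA) hyA)
  -- the chart `x'⁻¹`, where `a b q` reduces to zero
  have hI : ∀ P : Place Kbar (FN M), 0 ≤ P.ord x'⁻¹ → ev P x'⁻¹ ∈ A →
      ev P (a * b * q) ∈ A.nonunits → AUnit (galM M) A (D.xK Kbar) rb.f P := fun P hy hyA h =>
    aunit_of_chart_sub_inv hℓ D A hA hc Uaw.1 Ubw.1 e₃ hy hyA
      (Uaw.isAU hϖ habq P hy hyA h) (Ubw.isAU hϖ habq P hy hyA h)
  refine ⟨ra, rb, fun P hP => ?_, fun P hP => ?_⟩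
  · rcases chart_dichotomy (A := A) x'⁻¹ P with ⟨hy, hyA⟩ | ⟨hy, hyA⟩
    · have hab : ev P (a * b * q) ∉ A.nonunits := fun hab =>
        ordb P hP (hI P hy hyA hab).ord_eq_zero.2.1
      obtain ⟨oa, va⟩ := ev_mem_of_mem_chart haC P hy hyA
      obtain ⟨ob, vb⟩ := ev_mem_of_mem_chart hbC P hy hyA
      obtain ⟨oq, vq⟩ := ev_mem_of_mem_chart hq P hy hyA
      have oab : 0 ≤ P.ord (a * b) := by
        rw [P.ord_mul ha hb]
        omega
      rw [ev_mul oab oq, ev_mul oa ob] at hab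
      refine aunit_of_chart_sub_inv hℓ D A hA hc haC hbC e₂ hy hyA
        (Reps.isAU_of_notMem_nonunits va (A.mul_mem _ _ vb vq) ?_)
        (Reps.isAU_of_notMem_nonunits vb (A.mul_mem _ _ va vq) ?_)
      · rwa [← mul_assoc]
      · rwa [← mul_assoc, mul_comm (ev P b)]
    · rw [inv_inv] at hy hyA
      exact hII P hy hyA
  · rcases chart_dichotomy (A := A) x'⁻¹ P with ⟨hy, hyA⟩ | ⟨hy, hyA⟩
    · refine hI P hy hyA ?_
      obtain ⟨oa, -⟩ := ev_mem_of_mem_chart haC P hy hyA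
      obtain ⟨ob, -⟩ := ev_mem_of_mem_chart hbC P hy hyA
      obtain ⟨oq, -⟩ := ev_mem_of_mem_chart hq P hy hyA
      have oab : 0 ≤ P.ord (a * b) := by
        rw [P.ord_mul ha hb]
        omega
      by_cases hPT : P ∈ DP.support
      · rw [ev_mul oab oq, hqT P hPT, mul_zero]
        exact Reps.zero_mem_nonunits A
      · have h1 := P.ord_mul ra.div.1 hb
        rw [e₂, orda P, Finsupp.notMem_support_iff.1 hPT, sub_zero] at h1
        have h2 : (n : ℤ) * ra.D P ≠ 0 := mul_ne_zero hn' hP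
        have h3 : 0 < P.ord (a * b) := by
          rw [P.ord_mul ha hb]
          omega
        rw [ev_mul oab oq, (ev_eq_zero_iff oab).2 (Or.inr h3), zero_mul]
        exact Reps.zero_mem_nonunits A
    · exfalso
      rw [inv_inv] at hy hyA
      have h0 := (hII P hy hyA).ord_eq_zero.2.1
      rw [orda P] at h0
      have hPT : P ∈ DP.support := by
        rw [Finsupp.mem_support_iff]
        intro h1
        rw [h1, sub_zero] at h0
        exact mul_ne_zero hn' hP h0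
      obtain ⟨hy', hyA'⟩ := hT P hPT
      have ho : P.ord x' = 0 := by
        rw [P.ord_inv] at hy'
        omega
      rw [ev_inv hx'0 ho] at hyA'
      have hne : ev P x' ≠ 0 := ev_ne_zero_of_ord_eq_zero hx'0 ho
      rw [ValuationSubring.mem_nonunits_iff] at hyA
      rw [← A.valuation_le_one_iff, map_inv₀] at hyA'
      have h5 : A.valuation (ev P x') ≠ 0 := (Valuation.ne_zero_iff _).2 hne
      have h6 := (inv_le_one₀ (zero_lt_iff.2 h5)).1 hyA'
      exact absurd hyA (not_lt.2 h6)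

end Fermat.Agent.S15.Ext
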