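/-
S15, block EXT (architect helper92): the main theorem (FL-2 + FL-3 of report #1369).
-/
import Fermat.Agent.S15.Ext.Reps
import Fermat.Agent.S15.Ext.OfReps

set_option autoImplicit false

noncomputable section

namespace Fermat.Agent.S15.Ext

open AlgebraicCurve ModularCurve Fermat.Agent.S24 Fermat.Agent.S24.FF Fermat.Agent.S27
  Fermat.Agent.S18 Fermat.Agent.S19 Fermat.Agent.S19.Weil Fermat.Agent.S19.Int

variable {M ℓ : ℕ} [NeZero M] [Fact ℓ.Prime]

/-- Kummer cocycles of `J₀(M)` are flat at `ℓ ∤ M`. -/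
theorem isSI_weil_kummer (hℓ : ¬ ℓ ∣ M) (D : BaseData M ℓ) (hD : IsQuad D)
    (A : ValuationSubring Qb) (hA : A.LiesOverPrime ℓ) {n : ℕ} (hn : 0 < n)
    (DP : Divisor Kbar (FN M)) (hdeg : Divisor.degree DP = 0)
    (hfix : ∀ σ ∈ A.inertiaSubgroupIn ℚ, galM M σ • DP = DP) {R w : JZero M}
    (hR : (n : ℤ) • R = cls DP) (hw : (n : ℤ) • w = 0) :
    IsSI A (fun σ : Gal => weil n (σ • R - R) (σ • w)) := by
  obtain ⟨a, b, h1, h2⟩ := exists_good_kumReps hℓ D hD A hA hn hdeg hR hw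
  have hx : ∀ σ : Gal, galM M σ • D.xK Kbar = D.xK Kbar := fun σ =>
    Subtype.ext (Descent.coeffMap_coeffEmb' _ _)
  exact isSI_weil_kummer_of_reps (gal := galM M) (fun σ a => rfl) hx hn hfix a b h1 h2

end Fermat.Agent.S15.Ext
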