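/-
S15, block EXT, leaf QUAD (architect helper92): the three base coordinates (`j`, `h₂`, `h₃`) of `S18/Base/Bases.lean` satisfy `IsQuad`.
`S18.Base.nonempty_baseData_of/_j/_h2/_h3` only state `Nonempty (BaseData M ℓ)`; COPY their proofs (the file is frozen; all
the lemmas they use are public) with the stronger conclusion `∃ D, IsQuad D` (the field `g₁` is `C a * X ^ 2 + C b * X` by `rfl`).
-/
import Fermat.Agent.S15.Ext.Moebius
import Fermat.Agent.S18.Base.Bases

set_option autoImplicit false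

noncomputable section

namespace Fermat.Agent.S15.Ext

open Polynomial IntermediateField ModularCurve AlgebraicCurve Fermat.Agent.S24 Fermat.Agent.S18

open Fermat.Agent.S24.FF Fermat.Agent.Lib.Hauptmodul Fermat.Agent.S18.Base in
/-- copy of `S18.Base.nonempty_baseData_of` with the stronger conclusion. -/
theorem Quad_exists_isQuad_of (M ℓ : ℕ) (e : ℤ) (he : e ≠ 0) (u : PowerSeries ℤ)
    (hu : PowerSeries.constantCoeff u = 1)
    (mem : coeffMap (Int.castRingHom ℚ) (mkX e u) ∈ modularFunctionFieldFull M)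
    (j_mem : jq ∈ ℚ⟮coeffMap (Int.castRingHom ℚ) (mkX e u)⟯)
    (x : FN M)
    (hx : (x : LaurentSeries Kbar) = coeffEmb Kbar (coeffMap (Int.castRingHom ℚ) (mkX e u)))
    (a b : ℤ) (ha : IsUnit (a : ZMod ℓ)) (hb : IsUnit (b : ZMod ℓ))
    (ram : ∀ (v : Place Kbar (FN M)) (c : Kbar), c ≠ 0 → (a : Kbar) * c + b ≠ 0 →
      0 < v.ord (x - algebraMap Kbar (FN M) c) → v.ord (x - algebraMap Kbar (FN M) c) = 1) :
    ∃ D : BaseData M ℓ, IsQuad D := by
  have hxe : (⟨_, coeffEmb_mem_laurentBaseChange Kbar mem⟩ : FN M) = x := Subtype.ext hx.symm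
  refine ⟨{
    X := mkX e u
    Xinv := mkX (-e) (u.invOfUnit 1)
    mul_inv := mkX_mul_inv e u hu
    order_ne := by rw [order_mkX e u hu]; exact he
    mem := mem
    j_mem := j_mem
    g₁ := C a * X ^ 2 + C b * X
    g₂ := C b * X ^ 2 + C a * X
    sep₁ := by
      rw [map_quad]
      exact separable_quad _ _ (by simpa using hb)
    sep₂ := by
      rw [map_quad]
      exact separable_quad _ _ (by simpa using ha)
    ram₁ := ?_
    ram₂ := ?_ }, a, b, ha, hb, rfl⟩
  · intro v c hc hv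
    rw [hxe] at hv ⊢
    obtain ⟨h0, h1⟩ := eval_quad_ne hc
    exact ram v c h0 h1 hv
  · intro v c hc hv
    rw [hxe] at hv ⊢
    obtain ⟨h0, h1⟩ := eval_quad_ne hc
    have e1 := ord_inv_sub x v c h0 hv
    rw [e1] at hv ⊢
    refine ram v c⁻¹ (inv_ne_zero h0) ?_ hv
    intro h2
    apply h1
    field_simp at h2
    linear_combination h2

open Fermat.Agent.S24.FF Fermat.Agent.Lib.Hauptmodul Fermat.Agent.S18.Base in
theorem exists_isQuad_j (M ℓ : ℕ) [NeZero M] (hℓ : ℓ.Prime) (h5 : 5 ≤ ℓ) :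
    ∃ D : BaseData M ℓ, IsQuad D := by
  refine Quad_exists_isQuad_of M ℓ (-1) (by norm_num) jNum constantCoeff_jNum ?_ ?_ (jF M) ?_
    1 (-1728) (by simp) (isUnit_1728 hℓ h5) ?_
  · rw [coeffMap_mkX_jNum]
    have h := jqd_mem_full M (one_dvd M)
    rwa [qExpand_one_apply] at h
  · rw [coeffMap_mkX_jNum]
    exact mem_adjoin_simple_self ℚ jq
  · rw [coeffMap_mkX_jNum]
    exact Bar.coe_jF M
  · intro v c h0 h1 hv
    refine Export.ord_jF_sub_eq_one M c h0 ?_ v hv
    rintro rfl
    apply h1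
    push_cast
    ring

open Fermat.Agent.S24.FF Fermat.Agent.Lib.Hauptmodul Fermat.Agent.S18.Base in
theorem exists_isQuad_h2 (M : ℕ) [NeZero M] (h2 : 2 ∣ M) : ∃ D : BaseData M 3, IsQuad D := by
  have e : coeffMap (Int.castRingHom ℚ) (mkX 1 u2Z) = h2q := coeffMap_mkX_one u2Z
  refine Quad_exists_isQuad_of M 3 1 one_ne_zero u2Z constantCoeff_u2Z ?_ ?_ (h2F M h2) ?_
    64 1 (by decide) (by decide) ?_
  · rw [e]
    exact full_degeneracy_le h2 h2q_mem
  · rw [e]
    have hne : h2q ≠ 0 := by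
      intro h
      have := coeff_h2q_one
      rw [h] at this
      simp at this
    have h1 : jq = (1 + 256 * h2q) ^ 3 / h2q := by
      rw [eq_div_iff hne]
      exact jq_mul_h2q
    rw [h1]
    have hm := mem_adjoin_simple_self ℚ h2q
    exact div_mem (pow_mem (add_mem (one_mem _) (mul_mem (by
      have := _root_.natCast_mem ℚ⟮h2q⟯ 256
      simpa using this) hm)) 3) hm
  · rw [e]
    rfl
  · intro v c h0 h1 hv
    exact ord_h2F_sub_eq_one M h2 c h0 (by simpa using h1) v hv

open Fermat.Agent.S24.FF Fermat.Agent.Lib.Hauptmodul Fermat.Agent.S18.Base in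
theorem exists_isQuad_h3 (M : ℕ) [NeZero M] (h3 : 3 ∣ M) : ∃ D : BaseData M 2, IsQuad D := by
  have e : coeffMap (Int.castRingHom ℚ) (mkX 1 u3Z) = h3q := coeffMap_mkX_one u3Z
  refine Quad_exists_isQuad_of M 2 1 one_ne_zero u3Z constantCoeff_u3Z ?_ ?_ (h3F M h3) ?_
    27 1 (by decide) (by decide) ?_
  · rw [e]
    exact full_degeneracy_le h3 h3q_mem
  · rw [e]
    have hne : h3q ≠ 0 := by
      intro h
      have := coeff_h3q_one
      rw [h] at this
      simp at this
    have h1 : jq = (1 + 27 * h3q) * (1 + 243 * h3q) ^ 3 / h3q := by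
      rw [eq_div_iff hne]
      exact jq_mul_h3q
    rw [h1]
    have hm := mem_adjoin_simple_self ℚ h3q
    exact div_mem (mul_mem (add_mem (one_mem _) (mul_mem (by
      have := _root_.natCast_mem ℚ⟮h3q⟯ 27
      simpa using this) hm)) (pow_mem (add_mem (one_mem _) (mul_mem (by
      have := _root_.natCast_mem ℚ⟮h3q⟯ 243
      simpa using this) hm)) 3)) hm
  · rw [e]
    rfl
  · intro v c h0 h1 hv
    exact ord_h3F_sub_eq_one M h3 c h0 (by simpa using h1) v hv

end Fermat.Agent.S15.Ext
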